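/-
Programme MAZ (S15), brick S15-TOP (helper88), part 5: **the landed leaves discharged.**

`s15_of_leaves` (`Endgame88/TopFinal.lean`) has nine leaves.  Six of them are on `main`, unconditionally:

* `LeafFlat`   := `T1AX41.hasFlatModel_torsion`   (helper41; S19 target at level `p`);
* `LeafRClass` := `Constit89.rClass_gm` + `Gm5.finite_gm`   (helper89, helper5);
* `LeafK2`     := `T1AX41.hK2'`   (helper41/helper97/helper59; T1A-X);
* `LeafG0`     := `HeckeRed71.G0All.hG0`,   `LeafE4` := `HeckeRed71.G0All.hE4`   (helper71);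
* `LeafE3`     := `D3Prime24.e3_uncond`   (helper24/helper86/helper58).

`s15_of_three` : the conclusion of S15 from the THREE remaining leaves `LeafS17` (= `S17.result`, kept out of
the import closure of this file), `LeafA3` (helper72) and `LeafK3` (T1B-U, helper7's final plug), with the
adapters `leafA3_of_gmMod`, `leafK3_of_fixedPoints` from the shapes in which their owners deliver them.
-/
import Mathlib
import Fermat.Agent.MAZ.Endgame88.TopFinal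
import Fermat.Agent.MAZ.T1AX41.Flat
import Fermat.Agent.MAZ.T1AX41.K2
import Fermat.Agent.MAZ.HeckeRed71.G0All
import Fermat.Agent.MAZ.D3Prime24.E3
import Fermat.Agent.MAZ.Constit89.GmInst
import Fermat.Agent.MAZ.Gm5.Finite

set_option autoImplicit false
set_option linter.unusedSectionVars false
set_option linter.unusedVariables false
set_option linter.style.haveILetI false
set_option synthInstance.maxHeartbeats 400000

open ModularCurve AlgebraicCurve WeierstrassCurve WeierstrassCurve.Affine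

noncomputable section

namespace Fermat.Agent.MAZ.Endgame88

open Fermat.Agent.Flat44 Fermat.Agent.MAZ.SelCoh42 Fermat.Agent.MAZ.FlatCond42
open Fermat.Agent.MAZ.Kum5 Fermat.Agent.MAZ.HeckeCusp89 ExtCitation

section Closed

variable (p : ℕ) [NeZero p]

/-- A prime divisor of `p - 1` does not divide the prime `p`. -/
theorem not_dvd_of_dvd_pred (hp : p.Prime) {r : ℕ} (hr : r.Prime) (hrp1 : r ∣ p - 1) : ¬ r ∣ p := by
  intro h
  have hrp : r = p := (Nat.prime_dvd_prime_iff_eq hr hp).1 h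
  have hpos : 0 < p - 1 := by have := hp.two_le; omega
  have hle := Nat.le_of_dvd hpos hrp1
  omega

/-- **`LeafFlat`**, closed (helper41, `T1AX41.hasFlatModel_torsion`). -/
theorem leafFlat_closed (hp : p.Prime) (r : ℕ) (hr : r.Prime) (hrp1 : r ∣ p - 1) : LeafFlat p r := by
  haveI : Fact r.Prime := ⟨hr⟩
  intro k
  exact Fermat.Agent.MAZ.T1AX41.hasFlatModel_torsion p r (not_dvd_of_dvd_pred p hp hr hrp1) k

/-- **`LeafRClass`**, closed (helper89 `Constit89.rClass_gm`, helper5 `Gm5.finite_gm`). -/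
theorem leafRClass_closed (hp : p.Prime) (r : ℕ) [hr : Fact r.Prime] (S : Finset ℕ)
    (hpS : p ∈ S) (hrS : r ∈ S) : LeafRClass p r S := by
  haveI : Fact p.Prime := ⟨hp⟩
  haveI : Fact (p ∈ S) := ⟨hpS⟩
  intro k
  haveI : Finite (Fermat.Agent.MAZ.Gm5.GmMod p r S k) :=
    Fermat.Agent.MAZ.Gm5.finite_gm p r hr.1.pos S k
  exact Fermat.Agent.MAZ.Constit89.rClass_gm (p := p) (S := S) r hrS k

/-- **`LeafK2`**, closed (helper41 `T1AX41.hK2'`; divisibility from `MW.Div73`). -/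
theorem leafK2_closed (hp : p.Prime) (r : ℕ) (hr : r.Prime) (hrp1 : r ∣ p - 1) : LeafK2 p r := by
  haveI : Fact r.Prime := ⟨hr⟩
  haveI := Fermat.Agent.RED.LVL.LevelDegree17.neZero_auxLevel r p
  have hrp : ¬ r ∣ p := not_dvd_of_dvd_pred p hp hr hrp1
  have hne : ∀ k : ℕ, r ^ k ≠ 0 := fun k => pow_ne_zero k hr.ne_zero
  refine leafK2_of_kumCocycle p r
    (fun k x => Fermat.Agent.MW.Div73.jzero_divisible p (r ^ k) (hne k) x)
    (Fermat.Agent.MAZ.KumFlat97.isSmooth_JZero p) (fun k x => ?_)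
  haveI : NeZero (r ^ k) := ⟨hne k⟩
  obtain ⟨z, hz⟩ := Fermat.Agent.MW.Div73.jzero_divisible p (r ^ k) (hne k) x.1
  exact ⟨z, hz, Fermat.Agent.MAZ.T1AX41.hK2' p r hrp (r ^ k)
    (fun x => Fermat.Agent.MW.Div73.jzero_divisible p (r ^ k) (hne k) x)
    (fun x => Fermat.Agent.MW.Div73.jzero_divisible
      (Fermat.Agent.RED.Interface4.auxLevel r p) (r ^ k) (hne k) x) x z hz⟩

/-- **`LeafG0`**, closed (helper71 `HeckeRed71.G0All.hG0`). -/
theorem leafG0_closed (hp : p.Prime) : LeafG0 p :=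
  fun {ℓ'} hℓ' hℓ'p A' hA' => Fermat.Agent.MAZ.HeckeRed71.G0All.hG0 hp hℓ' hℓ'p A' hA'

/-- **`LeafE4`**, closed (helper71 `HeckeRed71.G0All.hE4`). -/
theorem leafE4_closed (hp : p.Prime) : LeafE4 p :=
  fun {ℓ'} hℓ' hℓ'p A' hA' q hqℓ hqp z hz =>
    Fermat.Agent.MAZ.HeckeRed71.G0All.hE4 hp hℓ' hℓ'p A' hA' q hqℓ hqp z hz

/-- **`LeafE3`**, closed (helper24 `D3Prime24.e3_uncond`). -/
theorem leafE3_closed (hp : p.Prime) (hp2 : p ≠ 2) (W : WeierstrassCurve ℤ) (hΔ : W.Δ ≠ 0)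
    (Q : ((W.map (Int.castRingHom ℚ))⁄(AlgebraicClosure ℚ)).Point)
    (hQfix : ∀ σ : AlgebraicClosure ℚ ≃ₐ[ℚ] AlgebraicClosure ℚ, σ • Q = Q)
    (hQord : addOrderOf Q = p)
    (h2Δ : (2 : ℤ) ∣ W.Δ) (h2c₄ : ¬ (2 : ℤ) ∣ W.c₄) : LeafE3 p W Q :=
  Fermat.Agent.MAZ.D3Prime24.e3_uncond hp hp2 W hΔ Q hQfix hQord h2Δ h2c₄

/-- **(A3') adapter**: helper72's `A3Conj72.card_GmMod_le_card_Inv_conj_sq'` (stated for helper5's
`Gm5.GmMod p r S k`) is `LeafA3`. -/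
theorem leafA3_of_gmMod (r : ℕ) (S : Finset ℕ)
    (h : ∀ k : ℕ, Nat.card (Fermat.Agent.MAZ.Gm5.GmMod p r S k) ≤
      Nat.card ↥(Inv (Subgroup.zpowers (complexConjugation : GQ))
        (Fermat.Agent.MAZ.Gm5.GmMod p r S k)) ^ 2) : LeafA3 p r S :=
  fun k => h k

/-- **(K3) adapter**: the conclusion of helper7's `K3Asm7.leafK3_of_local_tw` / `leafK3_of_levelData_tw`
(rational points as members of `FixedPoints.addSubgroup`) is `LeafK3`. -/
theorem leafK3_of_fixedPoints (r : ℕ)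
    (h : ∃ Ap : ValuationSubring Qb, Ap.LiesOverPrime p ∧ ∃ M₁ : ℕ, 0 < M₁ ∧
      ∀ k : ℕ, ∀ x ∈ FixedPoints.addSubgroup GQ (JZero p),
        ∃ z' : JZero p, r ^ k • z' = M₁ • x ∧ ∀ s ∈ Ap.inertiaSubgroupIn ℚ, s • z' = z') :
    LeafK3 p r := by
  obtain ⟨Ap, hAp, M₁, hM₁, h'⟩ := h
  exact ⟨Ap, hAp, M₁, hM₁, fun k x =>
    h' k x.1 ((FixedPoints.mem_addSubgroup (M := GQ) (α := JZero p) x.1).2 (mem_Inv_top.1 x.2))⟩

end Closed

/-- **S15 from the three leaves `LeafS17`, `LeafA3`, `LeafK3`.**  The hypotheses after the leaves are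
those of the frozen S15, in order. -/
theorem s15_of_three
    {p : ℕ} [NeZero p] (hp : p.Prime) (hp' : p ∉ ({2, 3, 5, 7, 13} : Finset ℕ))
    (W : WeierstrassCurve ℤ) (hΔ : W.Δ ≠ 0)
    (Q : ((W.map (Int.castRingHom ℚ))⁄(AlgebraicClosure ℚ)).Point)
    (hQfix : ∀ σ : AlgebraicClosure ℚ ≃ₐ[ℚ] AlgebraicClosure ℚ, σ • Q = Q)
    (hQord : addOrderOf Q = p)
    (hS17 : LeafS17 p)
    (hA3 : ∀ r : ℕ, r.Prime → r ∣ p - 1 → ∀ S : Finset ℕ,
      ({2, 3, p, r} : Finset ℕ) ⊆ S → LeafA3 p r S)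
    (hK3 : ∀ r : ℕ, r.Prime → r ∣ p - 1 → LeafK3 p r)
    (h2Δ : (2 : ℤ) ∣ W.Δ) (h2c₄ : ¬ (2 : ℤ) ∣ W.c₄)
    (h2 : ∀ A' : ValuationSubring Qb, A'.LiesOverPrime 2 → ¬ W.InZeroComponentAt A' Q)
    (h3Δ : (3 : ℤ) ∣ W.Δ) (h3c₄ : ¬ (3 : ℤ) ∣ W.c₄)
    (h3 : ∀ A' : ValuationSubring Qb, A'.LiesOverPrime 3 → ¬ W.InZeroComponentAt A' Q)
    {ℓ : ℕ} (hℓ : ℓ.Prime) (hℓp : ℓ ≠ p) (hℓΔ : (ℓ : ℤ) ∣ W.Δ) (hℓc₄ : ¬ (ℓ : ℤ) ∣ W.c₄)
    (A : ValuationSubring Qb) (hA : A.LiesOverPrime ℓ) :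
    ¬ W.InZeroComponentAt A Q := by
  have hp2 : p ≠ 2 := fun h => hp' (by simp [h])
  exact s15_of_leaves hp hp' W Q hS17
    (fun r hr hrp1 => leafFlat_closed p hp r hr hrp1)
    (fun r _ hrp1 S hS => leafRClass_closed p hp r S (hS (by simp)) (hS (by simp)))
    hA3
    (fun r hr hrp1 => leafK2_closed p hp r hr hrp1)
    hK3 (leafG0_closed p hp) (leafE4_closed p hp)
    (leafE3_closed p hp hp2 W hΔ Q hQfix hQord h2Δ h2c₄)
    h2Δ h2c₄ h2 h3Δ h3c₄ h3 hℓ hℓp hℓΔ hℓc₄ A hA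

/-- `p ∉ {2, 3, 5, 7, 13}` prime gives `5 ≤ p` (the hypothesis of `S17.result` and of
`K3Asm7.leafK3_hub`). -/
theorem five_le_of_notMem {p : ℕ} (hp : p.Prime) (hp' : p ∉ ({2, 3, 5, 7, 13} : Finset ℕ)) :
    5 ≤ p := by
  rcases Nat.lt_or_ge p 5 with h | h
  · exfalso
    have h2 := hp.two_le
    have h3 : p = 2 ∨ p = 3 ∨ p = 4 := by omega
    rcases h3 with rfl | rfl | rfl
    · exact hp' (by simp)
    · exact hp' (by simp)
    · exact absurd hp (by norm_num)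
  · exact h

/-- **S15 from the providers of the three last leaves, each in the frozen shape of its owner**
(helper43's end-game freeze): `hS17` = `S17.result p hp h5`; `hA3` = helper72's
`A3Conj72.card_GmMod_le_card_Inv_conj_sq'`; `hK3` = helper7's `K3Asm7.leafK3_hub`. -/
theorem s15_of_providers
    {p : ℕ} [NeZero p] (hp : p.Prime) (hp' : p ∉ ({2, 3, 5, 7, 13} : Finset ℕ))
    (W : WeierstrassCurve ℤ) (hΔ : W.Δ ≠ 0)
    (Q : ((W.map (Int.castRingHom ℚ))⁄(AlgebraicClosure ℚ)).Point)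
    (hQfix : ∀ σ : AlgebraicClosure ℚ ≃ₐ[ℚ] AlgebraicClosure ℚ, σ • Q = Q)
    (hQord : addOrderOf Q = p)
    (hS17 : AddGroup.FG ↥(FixedPoints.addSubgroup
      (AlgebraicClosure ℚ ≃ₐ[ℚ] AlgebraicClosure ℚ) (JZero p)))
    (hA3 : ∀ (S : Finset ℕ), p ∈ S → ∀ (r : ℕ) [Fact r.Prime],
      (∀ y : JZero p, ∃ z : JZero p, r • z = y) → ∀ k : ℕ,
        Nat.card (Fermat.Agent.MAZ.Gm5.GmMod p r S k) ≤
          Nat.card ↥(Inv (Subgroup.zpowers
            (complexConjugation : AlgebraicClosure ℚ ≃ₐ[ℚ] AlgebraicClosure ℚ))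
            (Fermat.Agent.MAZ.Gm5.GmMod p r S k)) ^ 2)
    (hK3 : ∀ r : ℕ, r.Prime → r ≠ p →
      ∃ Ap : ValuationSubring (AlgebraicClosure ℚ), Ap.LiesOverPrime p ∧ ∃ M₁ : ℕ, 0 < M₁ ∧
        ∀ k : ℕ, ∀ x ∈ FixedPoints.addSubgroup
            (AlgebraicClosure ℚ ≃ₐ[ℚ] AlgebraicClosure ℚ) (JZero p),
          ∃ z' : JZero p, r ^ k • z' = M₁ • x ∧ ∀ s ∈ Ap.inertiaSubgroupIn ℚ, s • z' = z')
    (h2Δ : (2 : ℤ) ∣ W.Δ) (h2c₄ : ¬ (2 : ℤ) ∣ W.c₄)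
    (h2 : ∀ A' : ValuationSubring (AlgebraicClosure ℚ), A'.LiesOverPrime 2 →
      ¬ W.InZeroComponentAt A' Q)
    (h3Δ : (3 : ℤ) ∣ W.Δ) (h3c₄ : ¬ (3 : ℤ) ∣ W.c₄)
    (h3 : ∀ A' : ValuationSubring (AlgebraicClosure ℚ), A'.LiesOverPrime 3 →
      ¬ W.InZeroComponentAt A' Q)
    {ℓ : ℕ} (hℓ : ℓ.Prime) (hℓp : ℓ ≠ p) (hℓΔ : (ℓ : ℤ) ∣ W.Δ) (hℓc₄ : ¬ (ℓ : ℤ) ∣ W.c₄)
    (A : ValuationSubring (AlgebraicClosure ℚ)) (hA : A.LiesOverPrime ℓ) :
    ¬ W.InZeroComponentAt A Q :=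
  s15_of_three hp hp' W hΔ Q hQfix hQord hS17
    (fun r hr hrp1 S hS => by
      haveI : Fact r.Prime := ⟨hr⟩
      exact leafA3_of_gmMod p r S (fun k => hA3 S (hS (by simp)) r
        (fun y => Fermat.Agent.MW.Div73.jzero_divisible p r hr.ne_zero y) k))
    (fun r hr hrp1 => leafK3_of_fixedPoints p r
      (hK3 r hr (fun h => not_dvd_of_dvd_pred p hp hr hrp1 (h ▸ dvd_rfl))))
    h2Δ h2c₄ h2 h3Δ h3c₄ h3 hℓ hℓp hℓΔ hℓc₄ A hA

end Fermat.Agent.MAZ.Endgame88
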