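/-
Programme MAZ (S15), brick E-END (helper88): **the endgame of Mazur's step three as a conditional
theorem** (report 975 §1(c), signatures of report 959).

`p` a prime level, `J = JZero p`, `JQ = J^{G_ℚ}`, `T' = Gm5.heckeRing p S`.  The theorem is abstract
in `n` (`= nE p = (p-1)/gcd(p-1,12)`; only `n ≠ 1` is used), in the cuspidal class `c0 : J` and in
the moduli class `d ∈ JQ` (`= cl(x - cuspZero)`).  Hypotheses (all `Prop`s, to be discharged by the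
other MAZ bricks):

* `hplace` : every prime has a place of `ℚ̄` above it;
* `hS18`   : the statement of S18 at level `p`;
* `hG0`    : `ReductionInputsModL A p` for every `A` over a prime `ℓ ≠ p`      (F-G0);
* `hE4`    : `ker (reductionModL A p)` is stable under `T_q`, `q ∉ {ℓ, p}`      (F-E4');
* `hFIN`   : (FIN') for every prime `r ∣ n` and every `S ⊇ {2,3,p,r}`           (S-FIN);
* `hE2`    : for every prime `r ∣ n` some multiple of `c0` has order exactly `r` (F-E2);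
* `hE2l`   : for `ℓ ≥ 5`, `ℓ ∣ n`, `A` over `ℓ`: some multiple of `c0` killed by `ℓ` has nonzero
             reduction at `A`                                                  (F-E2ℓ);
* `hd`     : `red_A d = red_A c0` if `Q` is in the zero component at `A`, `= 0` otherwise,
             for `A` over a multiplicative prime `ℓ ≠ p`                        (F-E3, class form).
Conclusion: the conclusion of S15 verbatim.

Proof.  `ℓ ∈ {2,3}`: the hypothesis.  Otherwise pick a prime `r ∣ n`, `ℓ₀ ∈ {2,3} ∖ {r}`,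
`S = {2,3,p,r,ℓ}`, `t` from (FIN').  `red_{ℓ₀} d = 0`, so `red_{ℓ₀} (t d) = 0`; `t d` is torsion, so by
S18 at `ℓ₀` it is killed by `ℓ₀^a`.  If `Q` were in the zero component at `A`: `red_A (d - c0) = 0`, so
`red_A (ℓ₀^a • t (d - c0)) = red_A (-(ℓ₀^a s) • c0) = 0` with `r ∤ u := ℓ₀^a s`.  If `r ≠ ℓ`, S18 at `A`
kills `u • c1` for `c1` the multiple of `c0` of order `r`, so `c1 = 0`: contradiction.  If `r = ℓ`,
`red_A c1` is killed by `u` and by `ℓ`, so it is `0`: contradiction with (E2ℓ).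
-/
import Mathlib
import Fermat.Prelude.Def_ModularCurve_ReductionModL
import Fermat.Prelude.Def_ModularCurve_HeckeModule
import Fermat.Prelude.Def_ModularCurve_ArithmeticGalois
import Fermat.Prelude.Def_EllipticCurve_ZeroComponentAt
import Fermat.Prelude.Def_FLTPrelim_Ramification
import Fermat.Agent.MAZ.Gm5.Defs

set_option autoImplicit false
set_option linter.unusedSectionVars false
set_option linter.unusedVariables false

open ModularCurve WeierstrassCurve WeierstrassCurve.Affine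

noncomputable section

namespace Fermat.Agent.MAZ.Endgame88

open Fermat.Agent.MAZ.Gm5

local notation "Qb" => AlgebraicClosure ℚ
local notation "Γℚ" => (AlgebraicClosure ℚ ≃ₐ[ℚ] AlgebraicClosure ℚ)

/-! ### Elementary lemmas -/

/-- an element killed by `u` and by a prime `r ∤ u` is zero. -/
theorem eq_zero_of_zsmul_of_nsmul {G : Type*} [AddCommGroup G] (x : G) (u : ℤ) {r : ℕ}
    (hr : r.Prime) (hu : ¬ (r : ℤ) ∣ u) (h1 : u • x = 0) (h2 : r • x = 0) : x = 0 := by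
  have hcop : IsCoprime (r : ℤ) u :=
    (Nat.prime_iff_prime_int.1 hr).irreducible.coprime_iff_not_dvd.2 hu
  obtain ⟨a, b, hab⟩ := hcop
  have h2' : (r : ℤ) • x = 0 := by rw [natCast_zsmul]; exact h2
  calc x = (1 : ℤ) • x := (one_zsmul x).symm
    _ = (a * (r : ℤ) + b * u) • x := by rw [hab]
    _ = a • ((r : ℤ) • x) + b • (u • x) := by rw [add_smul, mul_smul, mul_smul]
    _ = 0 := by rw [h2', h1, smul_zero, smul_zero, add_zero]

theorem zsmul_nsmul_comm' {G : Type*} [AddCommGroup G] (u : ℤ) (k : ℕ) (x : G) :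
    u • (k • x) = k • (u • x) := by
  rw [← natCast_zsmul, ← natCast_zsmul, smul_smul, smul_smul, mul_comm]

/-- a subring generated by operators preserving an additive subgroup preserves it. -/
theorem closure_preserves {M : Type*} [AddCommGroup M] (G : Set (Module.End ℤ M))
    (K : AddSubgroup M) (hG : ∀ T ∈ G, ∀ z ∈ K, T z ∈ K) {t : Module.End ℤ M}
    (ht : t ∈ Subring.closure G) : ∀ z ∈ K, t z ∈ K := by
  induction ht using Subring.closure_induction with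
  | mem T hT => exact hG T hT
  | zero => intro z _; rw [LinearMap.zero_apply]; exact K.zero_mem
  | one => intro z hz; exact hz
  | add a b _ _ ha hb =>
    intro z hz
    rw [LinearMap.add_apply]
    exact K.add_mem (ha z hz) (hb z hz)
  | neg a _ ha =>
    intro z hz
    rw [LinearMap.neg_apply]
    exact K.neg_mem (ha z hz)
  | mul a b _ _ ha hb =>
    intro z hz
    rw [Module.End.mul_apply]
    exact ha _ (hb z hz)

/-! ### The endgame -/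

section Endgame

variable {p : ℕ} [NeZero p]

/-- The rational points `J₀(p)(ℚ)`, as in S17. -/
abbrev JQ (p : ℕ) [NeZero p] : AddSubgroup (JZero p) := FixedPoints.addSubgroup Γℚ (JZero p)

/-- `ker (reductionModL A p)` is stable under `T' p S` as soon as `S ∋ ℓ, p`. -/
theorem red_heckeRing_eq_zero
    {ℓ : ℕ} (A : ValuationSubring Qb)
    (hE4 : ∀ q : Nat.Primes, (q : ℕ) ≠ ℓ → (q : ℕ) ≠ p → ∀ z : JZero p,
      reductionModL A p z = 0 → reductionModL A p (heckeOperatorBar p q z) = 0)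
    (S : Finset ℕ) (hℓS : ℓ ∈ S) (hpS : p ∈ S) {t : Module.End ℤ (JZero p)}
    (ht : t ∈ heckeRing p S) (z : JZero p) (hz : reductionModL A p z = 0) :
    reductionModL A p (t z) = 0 := by
  have key := closure_preserves {T | ∃ q : Nat.Primes, (q : ℕ) ∉ S ∧ T = heckeOperatorBar p q}
    (reductionModL A p).ker (by
      rintro T ⟨q, hq, rfl⟩ z hz
      rw [AddMonoidHom.mem_ker] at hz ⊢
      exact hE4 q (fun h => hq (h ▸ hℓS)) (fun h => hq (h ▸ hpS)) z hz) ht z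
    ((AddMonoidHom.mem_ker).2 hz)
  exact (AddMonoidHom.mem_ker).1 key

/-- **E-END: the endgame of S15**, abstract in `n`, `c0`, `d`. -/
theorem not_inZeroComponentAt_of_inputs
    (hp : p.Prime) (hp2 : p ≠ 2) (hp3 : p ≠ 3)
    (W : WeierstrassCurve ℤ)
    (Q : ((W.map (Int.castRingHom ℚ))⁄(AlgebraicClosure ℚ)).Point)
    (n : ℕ) (hn : n ≠ 1) (hn0 : n ≠ 0) (c0 : JZero p)
    (hplace : ∀ ℓ₀ : ℕ, ℓ₀.Prime → ∃ A₀ : ValuationSubring Qb, A₀.LiesOverPrime ℓ₀)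
    (hS18 : ∀ {ℓ' : ℕ}, ℓ'.Prime → ¬ ℓ' ∣ p → ∀ A' : ValuationSubring Qb, A'.LiesOverPrime ℓ' →
      ReductionInputsModL A' p → ∀ m : ℕ, ¬ ℓ' ∣ m → ∀ z : JZero p, m • z = 0 →
        reductionModL A' p z = 0 → z = 0)
    (hG0 : ∀ {ℓ' : ℕ}, ℓ'.Prime → ℓ' ≠ p → ∀ A' : ValuationSubring Qb, A'.LiesOverPrime ℓ' →
      ReductionInputsModL A' p)
    (hE4 : ∀ {ℓ' : ℕ}, ℓ'.Prime → ℓ' ≠ p → ∀ A' : ValuationSubring Qb, A'.LiesOverPrime ℓ' →
      ∀ q : Nat.Primes, (q : ℕ) ≠ ℓ' → (q : ℕ) ≠ p → ∀ z : JZero p,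
        reductionModL A' p z = 0 → reductionModL A' p (heckeOperatorBar p q z) = 0)
    (hFIN : ∀ r : ℕ, r.Prime → r ∣ n → ∀ S : Finset ℕ, ({2, 3, p, r} : Finset ℕ) ⊆ S →
      ∃ t ∈ heckeRing p S, (∃ s : ℤ, ¬ (r : ℤ) ∣ s ∧ t c0 = s • c0) ∧
        ∀ y ∈ JQ p, ∃ N : ℕ, 0 < N ∧ N • t y = 0)
    (hE2 : ∀ r : ℕ, r.Prime → r ∣ n → ∃ k : ℕ, k • c0 ≠ 0 ∧ r • (k • c0) = 0)
    (hE2l : ∀ ℓ' : ℕ, ℓ'.Prime → 5 ≤ ℓ' → ℓ' ≠ p → ℓ' ∣ n → ∀ A' : ValuationSubring Qb,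
      A'.LiesOverPrime ℓ' → ∃ k : ℕ, ℓ' • (k • c0) = 0 ∧ reductionModL A' p (k • c0) ≠ 0)
    (d : JZero p) (hdQ : d ∈ JQ p)
    (hd : ∀ {ℓ' : ℕ}, ℓ'.Prime → ℓ' ≠ p → (ℓ' : ℤ) ∣ W.Δ → ¬ (ℓ' : ℤ) ∣ W.c₄ →
      ∀ A' : ValuationSubring Qb, A'.LiesOverPrime ℓ' →
        (W.InZeroComponentAt A' Q → reductionModL A' p d = reductionModL A' p c0) ∧
        (¬ W.InZeroComponentAt A' Q → reductionModL A' p d = 0))
    (h2Δ : (2 : ℤ) ∣ W.Δ) (h2c₄ : ¬ (2 : ℤ) ∣ W.c₄)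
    (h2 : ∀ A' : ValuationSubring Qb, A'.LiesOverPrime 2 → ¬ W.InZeroComponentAt A' Q)
    (h3Δ : (3 : ℤ) ∣ W.Δ) (h3c₄ : ¬ (3 : ℤ) ∣ W.c₄)
    (h3 : ∀ A' : ValuationSubring Qb, A'.LiesOverPrime 3 → ¬ W.InZeroComponentAt A' Q)
    {ℓ : ℕ} (hℓ : ℓ.Prime) (hℓp : ℓ ≠ p) (hℓΔ : (ℓ : ℤ) ∣ W.Δ) (hℓc₄ : ¬ (ℓ : ℤ) ∣ W.c₄)
    (A : ValuationSubring Qb) (hA : A.LiesOverPrime ℓ) :
    ¬ W.InZeroComponentAt A Q := by
  -- the cases `ℓ = 2, 3`
  by_cases hℓ2 : ℓ = 2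
  · subst hℓ2; exact h2 A hA
  by_cases hℓ3 : ℓ = 3
  · subst hℓ3; exact h3 A hA
  intro hin
  -- a prime `r ∣ n`
  obtain ⟨r, hr, hrn⟩ := Nat.exists_prime_and_dvd hn
  -- the auxiliary prime `ℓ₀ ∈ {2, 3}`, `ℓ₀ ≠ r`
  obtain ⟨ℓ₀, hℓ₀, hℓ₀23, hℓ₀p, hℓ₀r, hℓ₀Δ, hℓ₀c, hℓ₀Q⟩ : ∃ ℓ₀ : ℕ, ℓ₀.Prime ∧ (ℓ₀ = 2 ∨ ℓ₀ = 3) ∧
      ℓ₀ ≠ p ∧ ℓ₀ ≠ r ∧ (ℓ₀ : ℤ) ∣ W.Δ ∧ ¬ (ℓ₀ : ℤ) ∣ W.c₄ ∧
      ∀ A' : ValuationSubring Qb, A'.LiesOverPrime ℓ₀ → ¬ W.InZeroComponentAt A' Q := by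
    by_cases hr2 : r = 2
    · exact ⟨3, Nat.prime_three, Or.inr rfl, fun h => hp3 h.symm, by omega, by exact_mod_cast h3Δ,
        by exact_mod_cast h3c₄, h3⟩
    · exact ⟨2, Nat.prime_two, Or.inl rfl, fun h => hp2 h.symm, fun h => hr2 h.symm,
        by exact_mod_cast h2Δ, by exact_mod_cast h2c₄, h2⟩
  -- the set `S` and the operator `t`
  set S : Finset ℕ := {2, 3, p, r, ℓ} with hS
  have hSsub : ({2, 3, p, r} : Finset ℕ) ⊆ S := by
    intro x hx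
    simp only [Finset.mem_insert, Finset.mem_singleton] at hx
    rw [hS]
    simp only [Finset.mem_insert, Finset.mem_singleton]
    tauto
  have hpS : p ∈ S := by rw [hS]; simp
  have hℓS : ℓ ∈ S := by rw [hS]; simp
  have hℓ₀S : ℓ₀ ∈ S := by
    rw [hS]
    rcases hℓ₀23 with h | h <;> simp [h]
  obtain ⟨t, htS, ⟨s, hs, hts⟩, httors⟩ := hFIN r hr hrn S hSsub
  -- a place over `ℓ₀`
  obtain ⟨A₀, hA₀⟩ := hplace ℓ₀ hℓ₀
  have hRI₀ := hG0 hℓ₀ hℓ₀p A₀ hA₀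
  have hRI := hG0 hℓ hℓp A hA
  -- step 1: `red_{ℓ₀} d = 0`, hence `red_{ℓ₀} (t d) = 0`
  have hd₀ : reductionModL A₀ p d = 0 := (hd hℓ₀ hℓ₀p hℓ₀Δ hℓ₀c A₀ hA₀).2 (hℓ₀Q A₀ hA₀)
  have htd₀ : reductionModL A₀ p (t d) = 0 :=
    red_heckeRing_eq_zero A₀ (hE4 hℓ₀ hℓ₀p A₀ hA₀) S hℓ₀S hpS htS d hd₀
  -- step 2: `t d` is torsion, killed by a power of `ℓ₀` (S18 at `ℓ₀`)
  obtain ⟨N, hN, hNtd⟩ := httors d hdQ
  obtain ⟨a, m, hm, hNam⟩ := Nat.exists_eq_pow_mul_and_not_dvd hN.ne' ℓ₀ hℓ₀.ne_one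
  have hℓ₀p' : ¬ ℓ₀ ∣ p := fun h => hℓ₀p ((Nat.prime_dvd_prime_iff_eq hℓ₀ hp).1 h)
  have hz₀ : ℓ₀ ^ a • t d = 0 := by
    refine hS18 hℓ₀ hℓ₀p' A₀ hA₀ hRI₀ m hm (ℓ₀ ^ a • t d) ?_ ?_
    · rw [← mul_nsmul', mul_comm, ← hNam]; exact hNtd
    · rw [map_nsmul, htd₀, nsmul_zero]
  -- step 3: `red_A (d - c0) = 0`, hence `red_A (u • c0) = 0`, `u = ℓ₀^a s`
  have hdc : reductionModL A p (d - c0) = 0 := by
    rw [map_sub, (hd hℓ hℓp hℓΔ hℓc₄ A hA).1 hin, sub_self]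
  have htdc : reductionModL A p (t (d - c0)) = 0 :=
    red_heckeRing_eq_zero A (hE4 hℓ hℓp A hA) S hℓS hpS htS (d - c0) hdc
  set u : ℤ := (ℓ₀ : ℤ) ^ a * s with hu
  have hru : ¬ (r : ℤ) ∣ u := by
    intro h
    have hrp : Prime (r : ℤ) := Nat.prime_iff_prime_int.1 hr
    rcases hrp.dvd_or_dvd h with h' | h'
    · have h'' := hrp.dvd_of_dvd_pow h'
      have : r ∣ ℓ₀ := by exact_mod_cast h''
      exact hℓ₀r ((Nat.prime_dvd_prime_iff_eq hr hℓ₀).1 this).symm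
    · exact hs h'
  have huc0 : reductionModL A p (u • c0) = 0 := by
    have h1 : (ℓ₀ ^ a) • t (d - c0) = - (u • c0) := by
      rw [map_sub, hts, nsmul_sub, hz₀, zero_sub, hu, mul_smul, ← natCast_zsmul (s • c0) (ℓ₀ ^ a)]
      push_cast
      rfl
    have h2 : reductionModL A p ((ℓ₀ ^ a) • t (d - c0)) = 0 := by
      rw [map_nsmul, htdc, nsmul_zero]
    rw [h1, map_neg, neg_eq_zero] at h2
    exact h2
  -- step 4: the two cases
  by_cases hrℓ : r = ℓ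
  · -- `r = ℓ ≥ 5`: (E2ℓ)
    have hℓ5 : 5 ≤ ℓ := by
      have h2le := hℓ.two_le
      by_contra hlt
      have : ℓ = 4 := by omega
      subst this
      norm_num at hℓ
    obtain ⟨k, hkℓ, hkred⟩ := hE2l ℓ hℓ hℓ5 hℓp (hrℓ ▸ hrn) A hA
    apply hkred
    refine eq_zero_of_zsmul_of_nsmul _ u hℓ (hrℓ ▸ hru) ?_ ?_
    · rw [← map_zsmul, zsmul_nsmul_comm', map_nsmul, huc0, nsmul_zero]
    · rw [← map_nsmul, hkℓ, map_zero]
  · -- `r ≠ ℓ`: (E2) + S18 at `ℓ`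
    obtain ⟨k, hk0, hkr⟩ := hE2 r hr hrn
    apply hk0
    have hℓp' : ¬ ℓ ∣ p := fun h => hℓp ((Nat.prime_dvd_prime_iff_eq hℓ hp).1 h)
    have hℓr : ¬ ℓ ∣ r := fun h => hrℓ ((Nat.prime_dvd_prime_iff_eq hℓ hr).1 h).symm
    have huk : u • (k • c0) = 0 := by
      refine hS18 hℓ hℓp' A hA hRI r hℓr (u • (k • c0)) ?_ ?_
      · rw [← zsmul_nsmul_comm', hkr, smul_zero]
      · rw [zsmul_nsmul_comm', map_nsmul, huc0, nsmul_zero]
    exact eq_zero_of_zsmul_of_nsmul _ u hr hru huk hkr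

end Endgame

end Fermat.Agent.MAZ.Endgame88
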