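/-
Programme MAZ (S15), brick S15-TOP (helper88), part 1: **`G_k = J₀(p)[r ^ k]_m` belongs to the Selmer
class** (`hmem` of `FinAbs19.eisenstein_fin_of_kummer`) from its three inputs, and the finiteness /
smoothness side conditions of `SSelInst97.card_selF_le_final`.

* `hecke_mem_Gm`        : `G_k` is stable under the `T_q`, `q ∉ S` (the hypothesis `hst` of helper89's
                          `rClass_of_le_Gm`);
* `flatMod_Gm`          : `FlatMod r (r ^ k) G_k` from the S19 target at level `p`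
                          (`HasFlatModel r (J₀(p)[r ^ k]) (torsionAct p (r ^ k))`);
* `actsTrivially_Gm`    : UNR-G in `ActsTrivially` form;
* `mem_selSystem_Gm`    : `(selSystem r (r ^ k) χ 𝒥).mem G_k`;
* `finite_Gm`, `isSmooth_Gm`.
-/
import Mathlib
import Fermat.Agent.MAZ.FinAbs19.SFin
import Fermat.Agent.Flat44.S19Target

set_option autoImplicit false
set_option linter.unusedSectionVars false
set_option linter.unusedVariables false
set_option linter.style.haveILetI false

open ModularCurve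

noncomputable section

namespace Fermat.Agent.MAZ.Endgame88

open Fermat.Agent.Flat44 Fermat.Agent.MAZ.SelCoh42 Fermat.Agent.MAZ.FlatCond42
open Fermat.Agent.MAZ.FinAbs19

variable (p : ℕ) [NeZero p]

/-! ### `G_k` is stable under the Hecke operators -/

/-- `T_q` commutes with `η_{q'}` for `q, q' ∉ S ∋ p`. -/
theorem commute_hecke_etaBar (hp : p.Prime) {S : Finset ℕ} (hpS : p ∈ S) (q q' : Nat.Primes)
    (hq : (q : ℕ) ∉ S) (hq' : (q' : ℕ) ∉ S) :
    Commute (heckeOperatorBar p q) (Gm5.etaBar p q') := by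
  have h1 : Commute (heckeOperatorBar p q) (heckeOperatorBar p q') :=
    heckeGen_comm p hp S hpS ⟨q, hq⟩ ⟨q', hq'⟩
  unfold Gm5.etaBar
  exact h1.sub_right (Nat.commute_cast _ _)

/-- **`G_k` is `T_q`-stable** for `q ∉ S`. -/
theorem hecke_mem_Gm (hp : p.Prime) {r : ℕ} {S : Finset ℕ} (hpS : p ∈ S) {k : ℕ} (q : Nat.Primes)
    (hq : (q : ℕ) ∉ S) {y : JZero p} (hy : y ∈ Gm5.Gm p r S k) :
    heckeOperatorBar p q y ∈ Gm5.Gm p r S k := by
  obtain ⟨hy1, hy2⟩ := hy
  refine ⟨by rw [← map_nsmul, hy1, map_zero], fun q' hq' => ?_⟩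
  obtain ⟨n, hn⟩ := hy2 q' hq'
  refine ⟨n, ?_⟩
  have hc : Commute (heckeOperatorBar p q) (Gm5.etaBar p q' ^ n) :=
    (commute_hecke_etaBar p hp hpS q q' hq hq').pow_right n
  have h2 : (Gm5.etaBar p q' ^ n) (heckeOperatorBar p q y) =
      heckeOperatorBar p q ((Gm5.etaBar p q' ^ n) y) := by
    rw [← Module.End.mul_apply, ← Module.End.mul_apply, hc.eq]
  rw [h2, hn, map_zero]

/-! ### The Selmer class -/

/-- `G_k` is finite. -/
theorem finite_Gm {r : ℕ} (hr : r.Prime) (S : Finset ℕ) (k : ℕ) :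
    Finite (GmStable p r S k).W := by
  have hfin := finite_rpow_torsion p r hr k
  refine Finite.of_injective
    (fun y : (GmStable p r S k).W => (⟨y.1, y.2.1⟩ : {x : JZero p // r ^ k • x = 0})) ?_
  intro a b h
  have h' : (a : JZero p) = (b : JZero p) := Subtype.mk.inj h
  exact Subtype.ext h'

/-- `G_k` is smooth. -/
theorem isSmooth_Gm (hsm : IsSmooth galLevel (JZero p)) (r : ℕ) (S : Finset ℕ) (k : ℕ) :
    IsSmooth galLevel (GmStable p r S k).W :=
  (GmStable p r S k).isSmooth_sub galLevel hsm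

/-- **`FlatMod` for `G_k`** from the S19 target at level `p`. -/
theorem flatMod_Gm {r : ℕ} [Fact r.Prime] (S : Finset ℕ) (k : ℕ)
    (hflat : HasFlatModel r ↥(Submodule.torsionBy ℤ (JZero p) ((r : ℤ) ^ k))
      (torsionAct p ((r : ℤ) ^ k))) :
    FlatMod r (r ^ k) (GmStable p r S k).W := by
  refine ⟨fun y => Subtype.ext y.2.1, ?_⟩
  have hmem : ∀ y : (GmStable p r S k).W,
      (y : JZero p) ∈ Submodule.torsionBy ℤ (JZero p) ((r : ℤ) ^ k) := by
    intro y
    rw [Submodule.mem_torsionBy_iff, ← Nat.cast_pow, natCast_zsmul]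
    exact y.2.1
  let g : (GmStable p r S k).W →+ ↥(Submodule.torsionBy ℤ (JZero p) ((r : ℤ) ^ k)) :=
    { toFun := fun y => ⟨y.1, hmem y⟩
      map_zero' := rfl
      map_add' := fun _ _ => rfl }
  have hg : Function.Injective g := by
    intro a b h
    have h' : ((g a : ↥(Submodule.torsionBy ℤ (JZero p) ((r : ℤ) ^ k))) : JZero p) =
        ((g b : ↥(Submodule.torsionBy ℤ (JZero p) ((r : ℤ) ^ k))) : JZero p) :=
      congrArg Subtype.val h
    exact Subtype.ext h'
  refine hasFlatModel_of_injective hflat g hg (fun σ y => ?_)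
  apply Subtype.ext
  rfl

/-- UNR-G in `ActsTrivially` form. -/
theorem actsTrivially_Gm {r : ℕ} (S : Finset ℕ) (k : ℕ) (I : Subgroup GQ)
    (h : ∀ s ∈ I, ∀ y : JZero p, r ^ k • y = 0 → s • y = y) :
    ActsTrivially I (GmStable p r S k).W :=
  fun s hs y => Subtype.ext (h s hs y.1 y.2.1)

/-- **`hmem`**: `G_k` belongs to the class of the Selmer system. -/
theorem mem_selSystem_Gm {r : ℕ} [Fact r.Prime] (S : Finset ℕ) (k : ℕ) [NeZero (r ^ k)]
    (χ : GQ →* (ZMod r)ˣ) (𝒥 : Set (Subgroup GQ))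
    (hflat : HasFlatModel r ↥(Submodule.torsionBy ℤ (JZero p) ((r : ℤ) ^ k))
      (torsionAct p ((r : ℤ) ^ k)))
    (hunr : ∀ I ∈ 𝒥, ∀ s ∈ I, ∀ y : JZero p, r ^ k • y = 0 → s • y = y)
    (hRC : RClass r χ (GmStable p r S k).W) :
    (selSystem r (r ^ k) χ 𝒥).mem (GmStable p r S k).W :=
  ⟨⟨flatMod_Gm p S k hflat, fun I hI => actsTrivially_Gm p S k I (hunr I hI)⟩, hRC⟩

end Fermat.Agent.MAZ.Endgame88
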