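/-
Programme MAZ (S15), brick S15-TOP (helper88), part 2: **(FIN') for `J₀(p)` at a prime `r ≠ p` from the
open leaves**, by wiring the landed bricks

* `FinAbs19.eisenstein_fin_final` (helper19, S-FIN with the Selmer bound `SSelInst97.card_selF_le_final`
  of helper97 discharged; all per-`k` inputs only for `k ≥ 1`),
* `InertiaInv5.card_le_card_inv_inertia_sq` (helper5, (A2) from unipotence),
* `Endgame88.mem_selSystem_Gm` (part 1: `hmem`),

with `χ := cycloChar r`, `𝒥 := inertiaFamily p r`, `Ip := Ap.inertiaSubgroupIn ℚ`,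
`cc := complexConjugation`.  The hypotheses of `eisenstein_fin_of_leaves` are the leaves, each in the
shape in which its owner delivers (or can deliver) it:

* `hfg`   (S17)            `AddGroup.FG ↥(JQ p)`;
* `hdiv`, `hsm` (Kum5/JZero) divisibility and smoothness of `J₀(p)(ℚ̄)`;
* `hflat` (S19 at level `p`) `HasFlatModel r (J₀(p)[r ^ k]) (torsionAct p (r ^ k))` (= `Flat44.S19FlatTarget` at `N = p`);
* `hRC`   (X-ES-A1)        `RClass r (cycloChar r) G_k`  (helper89's `rClass_of_le_Gm`; its hypothesis `hst`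
                           is `Endgame88.hecke_mem_Gm`);
* `hunip` (A2-input)       `(τ - 1)² = 0` on `J₀(p)[r ^ k]` for `τ` in the inertia group of `Ap`
                           (= `ES.N34.IfaceN4.InertiaTors` at `N = q = p`, `m = r ^ k`: landed with S34);
* `hA3`   (A3')            `|G_k| ≤ |G_k^{⟨c⟩}|²`  (row 676, helper72);
* `hK1`   (K1, UNR-G)      every inertia group at `q ∉ {p, r}` fixes every `z` with `r ^ k • z` rational
                           (`x = 0` gives UNR-G);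
* `hK2`   (K2, T1A-X)      every rational point has an `r ^ k`-division point whose Kummer cochain is flat
                           (stated for ANY cochain with values `g • z - z`, so that no `hdiv`/`hsm` term
                           occurs in the leaf);
* `hK3`   (K3, T1B-U)      `M₁ • x` has an `Ip`-fixed `r ^ k`-division point (`K3Abs42.exists_division_point`).
-/
import Mathlib
import Fermat.Agent.MAZ.Endgame88.Hmem
import Fermat.Agent.MAZ.FinAbs19.Final
import Fermat.Agent.MAZ.InertiaInv5.Spec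

set_option autoImplicit false
set_option linter.unusedSectionVars false
set_option linter.unusedVariables false
set_option linter.style.haveILetI false

open ModularCurve

noncomputable section

namespace Fermat.Agent.MAZ.Endgame88

open Fermat.Agent.Flat44 Fermat.Agent.MAZ.SelCoh42 Fermat.Agent.MAZ.FlatCond42
open Fermat.Agent.MAZ.SSelInst97 Fermat.Agent.MAZ.Kum5 ExtCitation

variable (p : ℕ) [NeZero p]

/-- **(FIN') at `r` from the leaves.** -/
theorem eisenstein_fin_of_leaves (hp : p.Prime) (r : ℕ) [hr : Fact r.Prime] (hpr : p ≠ r)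
    (S : Finset ℕ) (hpS : p ∈ S)
    (hfg : AddGroup.FG ↥(FixedPoints.addSubgroup GQ (JZero p)))
    (hdiv : ∀ k : ℕ, ∀ x : JZero p, ∃ y : JZero p, r ^ k • y = x)
    (hsm : IsSmooth galLevel (JZero p))
    (hflat : ∀ k : ℕ, HasFlatModel r ↥(Submodule.torsionBy ℤ (JZero p) ((r : ℤ) ^ k))
      (torsionAct p ((r : ℤ) ^ k)))
    (hRC : ∀ k : ℕ, RClass r (cycloChar r) (FinAbs19.GmStable p r S k).W)
    (Ap : ValuationSubring Qb) (hAp : Ap.LiesOverPrime p)
    (hunip : ∀ τ ∈ Ap.inertiaSubgroupIn ℚ, ∀ k : ℕ, ∀ y : JZero p, r ^ k • y = 0 →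
      τ • τ • y + y = τ • y + τ • y)
    (hA3 : ∀ k : ℕ, Nat.card (FinAbs19.GmStable p r S k).W ≤
      Nat.card (Inv (Subgroup.zpowers complexConjugation) (FinAbs19.GmStable p r S k).W) ^ 2)
    (hK1 : ∀ I ∈ inertiaFamily p r, ∀ s ∈ I, ∀ k : ℕ, ∀ z : JZero p,
      (∀ σ : GQ, σ • (r ^ k • z) = r ^ k • z) → s • z = z)
    (hK2 : ∀ (k : ℕ) (x : ↥(Inv (⊤ : Subgroup GQ) (JZero p))),
      ∃ z : JZero p, r ^ k • z = x.1 ∧
        ∀ c : GQ → ↥(tors (Γ := GQ) (JZero p) (r ^ k)).W,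
          (∀ g : GQ, ((c g : ↥(tors (Γ := GQ) (JZero p) (r ^ k)).W) : JZero p) = g • z - z) →
            IsFlatCochain r (r ^ k) c)
    (M₁ : ℕ) (hM₁ : 0 < M₁)
    (hK3 : ∀ (k : ℕ) (x : ↥(Inv (⊤ : Subgroup GQ) (JZero p))),
      ∃ z' : JZero p, r ^ k • z' = M₁ • x.1 ∧ ∀ s ∈ Ap.inertiaSubgroupIn ℚ, s • z' = z') :
    ∃ t ∈ Gm5.heckeRing p S,
      (∃ s : ℤ, ¬ (r : ℤ) ∣ s ∧
        t (Fermat.Agent.MAZ.HeckeCusp89.c0 p) = s • Fermat.Agent.MAZ.HeckeCusp89.c0 p) ∧
      ∀ y ∈ FixedPoints.addSubgroup GQ (JZero p), ∃ M : ℕ, 0 < M ∧ M • t y = 0 := by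
  haveI : Fact p.Prime := ⟨hp⟩
  have hrk : ∀ k : ℕ, NeZero (r ^ k) := fun k => ⟨pow_ne_zero k hr.1.ne_zero⟩
  -- UNR-G from (K1)
  have hunr : ∀ k : ℕ, ∀ I ∈ inertiaFamily p r, ∀ s ∈ I, ∀ y : JZero p, r ^ k • y = 0 → s • y = y := by
    intro k I hI s hs y hy
    refine hK1 I hI s hs k y fun σ => ?_
    rw [hy]
    exact smul_zero (A := JZero p) σ
  -- `hmem`
  have hmem : ∀ k : ℕ, (selSystem r (r ^ k) (cycloChar r) (inertiaFamily p r)).mem
      (FinAbs19.GmStable p r S k).W := fun k =>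
    mem_selSystem_Gm p S k (cycloChar r) (inertiaFamily p r) (hflat k) (hunr k) (hRC k)
  -- (A2)
  have h1 : ∀ k : ℕ, Nat.card (FinAbs19.GmStable p r S k).W ≤
      Nat.card (Inv (Ap.inertiaSubgroupIn ℚ) (FinAbs19.GmStable p r S k).W) ^ 2 := by
    intro k
    haveI : Finite (FinAbs19.GmStable p r S k).W := finite_Gm p hr.1 S k
    exact Fermat.Agent.MAZ.InertiaInv5.card_le_card_inv_inertia_sq p r hpr (isSmooth_Gm p hsm r S k)
      ⟨k, fun x => Subtype.ext x.2.1⟩ Ap hAp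
      (fun τ hτ x => Subtype.ext (hunip τ hτ k x.1 x.2.1))
  -- `hK`
  have hK : ∀ (k : ℕ) (x : ↥(Inv (⊤ : Subgroup GQ) (JZero p))),
      ∃ (z : JZero p) (hz : r ^ k • z = x.1),
        (∀ I ∈ inertiaFamily p r, ∀ s ∈ I, s • z = z) ∧
        IsFlatCochain r (r ^ k) (kumCocycle galLevel (hdiv k) hsm z (fun g => by
          rw [hz]; exact mem_Inv_top.1 x.2 g)).1 ∧
        ∃ z' : JZero p, r ^ k • z' = M₁ • x.1 ∧ ∀ s ∈ Ap.inertiaSubgroupIn ℚ, s • z' = z' := by
    intro k x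
    obtain ⟨z, hz, hfl⟩ := hK2 k x
    have hzinv : ∀ σ : GQ, σ • (r ^ k • z) = r ^ k • z := fun σ => by
      rw [hz]; exact mem_Inv_top.1 x.2 σ
    refine ⟨z, hz, fun I hI s hs => hK1 I hI s hs k z hzinv, ?_, hK3 k x⟩
    exact hfl _ fun g => kumCocycle_apply galLevel (hdiv k) hsm z _ g
  exact FinAbs19.eisenstein_fin_final p hp S hpS r hpr Ap hAp hfg hdiv hsm (fun k _ => hmem k)
    (fun k _ => h1 k) (fun k _ => hA3 k) M₁ hM₁ (fun k _ x => hK k x)

end Fermat.Agent.MAZ.Endgame88
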