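/-
Programme MAZ (S15), brick E-END (helper88), part 2: the bridges from the Lean signatures of
report 959 to the hypotheses of `Endgame88.Core.not_inZeroComponentAt_of_inputs`, and the
endgame with `c0 := HeckeCusp89.c0 p`, `n := nE p`.

* `nE p = (p - 1) / gcd (p - 1) 12`, `nE_ne_one` (`p ∉ {2,3,5,7,13}`), `nE_ne_zero`;
* `exists_liesOverPrime` : every prime has a place of `ℚ̄` above it (`padicPlace`);
* `exists_mul_of_div`, `exists_mul_red_of_div` : (E2), (E2ℓ) in the form `(n / r) • c0` ⇒ minimal form;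
* `moduliClass x = cl (x - cuspZero)`, `moduliClass_mem_JQ`, `red_moduliClass` :
  (E3) in place form ⇒ (E3) in class form;
* `s15_of_inputs` : the conclusion of S15 from the inputs in the shapes of report 959.
-/
import Mathlib
import Fermat.Prelude.Def_GaloisRep_CompletionBridge
import Fermat.Agent.MAZ.Endgame88.Core
import Fermat.Agent.MAZ.HeckeCusp89.Defs

set_option autoImplicit false
set_option linter.unusedSectionVars false
set_option linter.unusedVariables false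

open ModularCurve AlgebraicCurve WeierstrassCurve WeierstrassCurve.Affine

noncomputable section

namespace Fermat.Agent.MAZ.Endgame88

open Fermat.Agent.MAZ.Gm5 Fermat.Agent.MAZ.HeckeCusp89

local notation "Qb" => AlgebraicClosure ℚ
local notation "Γℚ" => (AlgebraicClosure ℚ ≃ₐ[ℚ] AlgebraicClosure ℚ)

/-! ### The number `n = (p - 1) / gcd (p - 1, 12)` -/

/-- `n = num ((p - 1) / 12)`. -/
def nE (p : ℕ) : ℕ := (p - 1) / Nat.gcd (p - 1) 12

theorem nE_mul_gcd (p : ℕ) : nE p * Nat.gcd (p - 1) 12 = p - 1 :=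
  Nat.div_mul_cancel (Nat.gcd_dvd_left _ _)

theorem nE_ne_zero {p : ℕ} (hp : p.Prime) : nE p ≠ 0 := by
  intro h
  have := nE_mul_gcd p
  rw [h, zero_mul] at this
  have := hp.two_le
  omega

theorem nE_ne_one {p : ℕ} (hp : p.Prime) (hp' : p ∉ ({2, 3, 5, 7, 13} : Finset ℕ)) :
    nE p ≠ 1 := by
  intro h
  have h1 := nE_mul_gcd p
  rw [h, one_mul] at h1
  have h2 : (p - 1) ∣ 12 := h1 ▸ Nat.gcd_dvd_right (p - 1) 12
  have h3 : p - 1 ≤ 12 := Nat.le_of_dvd (by norm_num) h2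
  have h4 : p ≤ 13 := by omega
  have h5 := hp.two_le
  simp only [Finset.mem_insert, Finset.mem_singleton, not_or] at hp'
  obtain ⟨hp2, hp3, hp5, hp7, hp13⟩ := hp'
  interval_cases p <;> first | omega | (norm_num at hp)

/-! ### Places above a prime -/

theorem exists_liesOverPrime (ℓ : ℕ) (hℓ : ℓ.Prime) :
    ∃ A : ValuationSubring Qb, A.LiesOverPrime ℓ := by
  have : Fact ℓ.Prime := ⟨hℓ⟩
  refine ⟨padicPlace ℓ, ?_⟩
  show ((ℓ : ℕ) : Qb) ∈ (padicPlace ℓ).nonunits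
  have hℓ0 : ((ℓ : ℕ) : Qb) ≠ 0 := by exact_mod_cast hℓ.ne_zero
  rw [ValuationSubring.mem_nonunits_iff, ← not_le, Valuation.one_le_val_iff _ hℓ0,
    ValuationSubring.valuation_le_one_iff, mem_padicPlace_iff, map_inv₀, map_natCast, nnnorm_inv,
    not_le]
  have h1 : ‖((ℓ : ℕ) : PadicAlgCl ℓ)‖₊ < 1 := by
    rw [← NNReal.coe_lt_coe, coe_nnnorm, NNReal.coe_one]
    have h : ((ℓ : ℕ) : PadicAlgCl ℓ) = algebraMap ℚ_[ℓ] (PadicAlgCl ℓ) (ℓ : ℚ_[ℓ]) := by simp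
    rw [h, PadicAlgCl.norm_extends, Padic.norm_p]
    exact inv_lt_one_of_one_lt₀ (by exact_mod_cast hℓ.one_lt)
  have h0 : 0 < ‖((ℓ : ℕ) : PadicAlgCl ℓ)‖₊ := by
    rw [nnnorm_pos]
    exact_mod_cast hℓ.ne_zero
  exact (one_lt_inv₀ h0).2 h1

/-! ### (E2), (E2ℓ): from `(n / r) • c0` to the minimal forms -/

theorem exists_mul_of_div {G : Type*} [AddCommGroup G] (c0 : G) {n r : ℕ} (hn : n • c0 = 0)
    (hr : r ∣ n) (h : (n / r) • c0 ≠ 0) : ∃ k : ℕ, k • c0 ≠ 0 ∧ r • (k • c0) = 0 :=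
  ⟨n / r, h, by rw [smul_smul, Nat.mul_div_cancel' hr, hn]⟩

theorem exists_mul_red_of_div {G H : Type*} [AddCommGroup G] [AddCommGroup H] (red : G →+ H)
    (c0 : G) {n r : ℕ} (hn : n • c0 = 0) (hr : r ∣ n) (h : red ((n / r) • c0) ≠ 0) :
    ∃ k : ℕ, r • (k • c0) = 0 ∧ red (k • c0) ≠ 0 :=
  ⟨n / r, by rw [smul_smul, Nat.mul_div_cancel' hr, hn], h⟩

/-! ### (E3): from places to classes -/

section Moduli

variable (p : ℕ) [NeZero p]

/-- The divisor `[x] - [0]`. -/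
def moduliDiv (x : Place Qb (modularFunctionFieldBar p)) :
    Divisor.degZero (K := Qb) (F := modularFunctionFieldBar p) :=
  ⟨Finsupp.single x 1 - Finsupp.single (cuspZero p) 1, by
    rw [Divisor.mem_degZero, map_sub, Divisor.degree_single, Divisor.degree_single,
      Fermat.Agent.RED.TOP.FbarFacts20.deg_eq_one_bar,
      Fermat.Agent.RED.TOP.FbarFacts20.deg_eq_one_bar, sub_self]⟩

/-- **The moduli class** `d = cl ([x] - [0]) ∈ J₀(p)(ℚ̄)`. -/
def moduliClass (x : Place Qb (modularFunctionFieldBar p)) : JZero p := Pic0.mk (moduliDiv p x)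

/-- `cl ([x] - [0])` is rational when `x` and the cusp `0` are fixed by the Galois action on places
(`galPlace σ v = arithmeticGalois _ σ • v`). -/
theorem moduliClass_mem_JQ (x : Place Qb (modularFunctionFieldBar p))
    (hx : ∀ σ : Γℚ, arithmeticGalois (modularFunctionFieldFull p) σ • x = x)
    (hcz : ∀ σ : Γℚ, arithmeticGalois (modularFunctionFieldFull p) σ • cuspZero p = cuspZero p) :
    moduliClass p x ∈ JQ p := by
  intro σ
  show σ • moduliClass p x = moduliClass p x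
  rw [galois_smul_pic0_def, moduliClass, SemilinearAut.pic0_smul_mk]
  congr 1
  apply Subtype.ext
  rw [SemilinearAut.coe_degZeroSMulHom]
  show arithmeticGalois (modularFunctionFieldFull p) σ •
      (Finsupp.single x 1 - Finsupp.single (cuspZero p) 1 :
        Divisor Qb (modularFunctionFieldBar p)) = _
  rw [smul_sub, SemilinearAut.smul_single, SemilinearAut.smul_single, hx σ, hcz σ]
  rfl

variable {p}

/-- The reduction of the moduli class in terms of the reduction of the place `x`. -/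
theorem red_moduliClass (A : ValuationSubring Qb) (h : ReductionInputsModL A p)
    (x : Place Qb (modularFunctionFieldBar p)) :
    (placeReductionModL h x = placeReductionModL h (cuspInf p) →
        reductionModL A p (moduliClass p x) = reductionModL A p (c0 p)) ∧
      (placeReductionModL h x = placeReductionModL h (cuspZero p) →
        reductionModL A p (moduliClass p x) = 0) := by
  constructor
  · intro hxr
    rw [moduliClass, c0, reductionModL_mk h, reductionModL_mk h]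
    congr 1
    apply Subtype.ext
    rw [coe_reductionDegZeroAlong, coe_reductionDegZeroAlong]
    show Finsupp.mapDomain (placeReductionModL h)
        (Finsupp.single x 1 - Finsupp.single (cuspZero p) 1) =
      Finsupp.mapDomain (placeReductionModL h)
        (Finsupp.single (cuspInf p) 1 - Finsupp.single (cuspZero p) 1)
    rw [← Finsupp.mapDomain.addMonoidHom_apply, ← Finsupp.mapDomain.addMonoidHom_apply, map_sub,
      map_sub, Finsupp.mapDomain.addMonoidHom_apply, Finsupp.mapDomain.addMonoidHom_apply,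
      Finsupp.mapDomain.addMonoidHom_apply, Finsupp.mapDomain_single, Finsupp.mapDomain_single,
      Finsupp.mapDomain_single, hxr]
  · intro hxr
    rw [moduliClass, reductionModL_mk h]
    have : reductionDegZeroAlong (placeReductionModL h)
        (isPlaceReductionModL_placeReductionModL h).1 (moduliDiv p x) = 0 := by
      apply Subtype.ext
      rw [coe_reductionDegZeroAlong]
      show Finsupp.mapDomain (placeReductionModL h)
        (Finsupp.single x 1 - Finsupp.single (cuspZero p) 1) = 0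
      rw [← Finsupp.mapDomain.addMonoidHom_apply, map_sub, Finsupp.mapDomain.addMonoidHom_apply,
        Finsupp.mapDomain.addMonoidHom_apply, Finsupp.mapDomain_single, Finsupp.mapDomain_single,
        hxr, sub_self]
    rw [this]
    rfl

end Moduli

/-! ### The endgame with `c0 := HeckeCusp89.c0 p`, `n := nE p` -/

/-- **E-END, concrete form**: the conclusion of S15 from the inputs in the shapes of report 959
(`c0 = HeckeCusp89.c0 p`, `T' = Gm5.heckeRing p S`, `n = nE p`), the moduli input (E3) in PLACE form. -/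
theorem s15_of_inputs
    {p : ℕ} [NeZero p] (hp : p.Prime) (hp' : p ∉ ({2, 3, 5, 7, 13} : Finset ℕ))
    (W : WeierstrassCurve ℤ)
    (Q : ((W.map (Int.castRingHom ℚ))⁄(AlgebraicClosure ℚ)).Point)
    (hS18 : ∀ {ℓ' : ℕ}, ℓ'.Prime → ¬ ℓ' ∣ p → ∀ A' : ValuationSubring Qb, A'.LiesOverPrime ℓ' →
      ReductionInputsModL A' p → ∀ m : ℕ, ¬ ℓ' ∣ m → ∀ z : JZero p, m • z = 0 →
        reductionModL A' p z = 0 → z = 0)
    (hG0 : ∀ {ℓ' : ℕ}, ℓ'.Prime → ℓ' ≠ p → ∀ A' : ValuationSubring Qb, A'.LiesOverPrime ℓ' →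
      ReductionInputsModL A' p)
    (hE4 : ∀ {ℓ' : ℕ}, ℓ'.Prime → ℓ' ≠ p → ∀ A' : ValuationSubring Qb, A'.LiesOverPrime ℓ' →
      ∀ q : Nat.Primes, (q : ℕ) ≠ ℓ' → (q : ℕ) ≠ p → ∀ z : JZero p,
        reductionModL A' p z = 0 → reductionModL A' p (heckeOperatorBar p q z) = 0)
    (hFIN : ∀ r : ℕ, r.Prime → r ∣ nE p → ∀ S : Finset ℕ, ({2, 3, p, r} : Finset ℕ) ⊆ S →
      ∃ t ∈ heckeRing p S, (∃ s : ℤ, ¬ (r : ℤ) ∣ s ∧ t (c0 p) = s • c0 p) ∧
        ∀ y ∈ JQ p, ∃ N : ℕ, 0 < N ∧ N • t y = 0)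
    (hOgg : nE p • c0 p = 0)
    (hE2 : ∀ r : ℕ, r.Prime → r ∣ nE p → (nE p / r) • c0 p ≠ 0)
    (hE2l : ∀ ℓ' : ℕ, ℓ'.Prime → 5 ≤ ℓ' → ℓ' ≠ p → ℓ' ∣ nE p → ∀ A' : ValuationSubring Qb,
      A'.LiesOverPrime ℓ' → reductionModL A' p ((nE p / ℓ') • c0 p) ≠ 0)
    (x : Place Qb (modularFunctionFieldBar p))
    (hxfix : ∀ σ : Γℚ, arithmeticGalois (modularFunctionFieldFull p) σ • x = x)
    (hczfix : ∀ σ : Γℚ,
      arithmeticGalois (modularFunctionFieldFull p) σ • cuspZero p = cuspZero p)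
    (hx : ∀ {ℓ' : ℕ}, ℓ'.Prime → ℓ' ≠ p → (ℓ' : ℤ) ∣ W.Δ → ¬ (ℓ' : ℤ) ∣ W.c₄ →
      ∀ A' : ValuationSubring Qb, A'.LiesOverPrime ℓ' →
        ∀ r : Place Qb (modularFunctionFieldBar p) →
            Place (IsLocalRing.ResidueField A')
              (modularFunctionFieldFullC (IsLocalRing.ResidueField A') p),
          IsPlaceReductionModL A' p r →
            (W.InZeroComponentAt A' Q → r x = r (cuspInf p)) ∧
            (¬ W.InZeroComponentAt A' Q → r x = r (cuspZero p)))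
    (h2Δ : (2 : ℤ) ∣ W.Δ) (h2c₄ : ¬ (2 : ℤ) ∣ W.c₄)
    (h2 : ∀ A' : ValuationSubring Qb, A'.LiesOverPrime 2 → ¬ W.InZeroComponentAt A' Q)
    (h3Δ : (3 : ℤ) ∣ W.Δ) (h3c₄ : ¬ (3 : ℤ) ∣ W.c₄)
    (h3 : ∀ A' : ValuationSubring Qb, A'.LiesOverPrime 3 → ¬ W.InZeroComponentAt A' Q)
    {ℓ : ℕ} (hℓ : ℓ.Prime) (hℓp : ℓ ≠ p) (hℓΔ : (ℓ : ℤ) ∣ W.Δ) (hℓc₄ : ¬ (ℓ : ℤ) ∣ W.c₄)
    (A : ValuationSubring Qb) (hA : A.LiesOverPrime ℓ) :
    ¬ W.InZeroComponentAt A Q := by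
  have hp2 : p ≠ 2 := fun h => hp' (by simp [h])
  have hp3 : p ≠ 3 := fun h => hp' (by simp [h])
  refine not_inZeroComponentAt_of_inputs hp hp2 hp3 W Q (nE p) (nE_ne_one hp hp') (nE_ne_zero hp)
    (c0 p) exists_liesOverPrime hS18 hG0 hE4 hFIN
    (fun r hr hrn => exists_mul_of_div (c0 p) hOgg hrn (hE2 r hr hrn))
    (fun ℓ' hℓ' h5 hℓ'p hℓ'n A' hA' =>
      exists_mul_red_of_div (reductionModL A' p) (c0 p) hOgg hℓ'n (hE2l ℓ' hℓ' h5 hℓ'p hℓ'n A' hA'))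
    (moduliClass p x) (moduliClass_mem_JQ p x hxfix hczfix) ?_ h2Δ h2c₄ h2 h3Δ h3c₄ h3 hℓ hℓp hℓΔ
    hℓc₄ A hA
  intro ℓ' hℓ' hℓ'p hℓ'Δ hℓ'c A' hA'
  have hRI := hG0 hℓ' hℓ'p A' hA'
  have hxr := hx hℓ' hℓ'p hℓ'Δ hℓ'c A' hA' (placeReductionModL hRI)
    (isPlaceReductionModL_placeReductionModL hRI)
  have hred := red_moduliClass A' hRI x
  exact ⟨fun hin => hred.1 (hxr.1 hin), fun hnin => hred.2 (hxr.2 hnin)⟩

/-- **E-END, order form**: the same with `n := addOrderOf (c0 p)`; only an UPPER bound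
`n₀ • c0 p = 0` (`n₀ > 0`, e.g. `n₀ = p - 1`) and `c0 p ≠ 0` are needed about the cuspidal class,
and (FIN'), (E2ℓ) for the primes dividing the order of `c0 p`. -/
theorem s15_of_inputs_order
    {p : ℕ} [NeZero p] (hp : p.Prime) (hp2 : p ≠ 2) (hp3 : p ≠ 3)
    (W : WeierstrassCurve ℤ)
    (Q : ((W.map (Int.castRingHom ℚ))⁄(AlgebraicClosure ℚ)).Point)
    (hS18 : ∀ {ℓ' : ℕ}, ℓ'.Prime → ¬ ℓ' ∣ p → ∀ A' : ValuationSubring Qb, A'.LiesOverPrime ℓ' →
      ReductionInputsModL A' p → ∀ m : ℕ, ¬ ℓ' ∣ m → ∀ z : JZero p, m • z = 0 →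
        reductionModL A' p z = 0 → z = 0)
    (hG0 : ∀ {ℓ' : ℕ}, ℓ'.Prime → ℓ' ≠ p → ∀ A' : ValuationSubring Qb, A'.LiesOverPrime ℓ' →
      ReductionInputsModL A' p)
    (hE4 : ∀ {ℓ' : ℕ}, ℓ'.Prime → ℓ' ≠ p → ∀ A' : ValuationSubring Qb, A'.LiesOverPrime ℓ' →
      ∀ q : Nat.Primes, (q : ℕ) ≠ ℓ' → (q : ℕ) ≠ p → ∀ z : JZero p,
        reductionModL A' p z = 0 → reductionModL A' p (heckeOperatorBar p q z) = 0)
    (n₀ : ℕ) (hn₀ : 0 < n₀) (hcusp : n₀ • c0 p = 0) (hc0 : c0 p ≠ 0)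
    (hFIN : ∀ r : ℕ, r.Prime → r ∣ addOrderOf (c0 p) → ∀ S : Finset ℕ,
      ({2, 3, p, r} : Finset ℕ) ⊆ S →
      ∃ t ∈ heckeRing p S, (∃ s : ℤ, ¬ (r : ℤ) ∣ s ∧ t (c0 p) = s • c0 p) ∧
        ∀ y ∈ JQ p, ∃ N : ℕ, 0 < N ∧ N • t y = 0)
    (hE2l : ∀ ℓ' : ℕ, ℓ'.Prime → 5 ≤ ℓ' → ℓ' ≠ p → ℓ' ∣ addOrderOf (c0 p) →
      ∀ A' : ValuationSubring Qb, A'.LiesOverPrime ℓ' →
        ∃ k : ℕ, ℓ' • (k • c0 p) = 0 ∧ reductionModL A' p (k • c0 p) ≠ 0)
    (x : Place Qb (modularFunctionFieldBar p))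
    (hxfix : ∀ σ : Γℚ, arithmeticGalois (modularFunctionFieldFull p) σ • x = x)
    (hczfix : ∀ σ : Γℚ,
      arithmeticGalois (modularFunctionFieldFull p) σ • cuspZero p = cuspZero p)
    (hx : ∀ {ℓ' : ℕ}, ℓ'.Prime → ℓ' ≠ p → (ℓ' : ℤ) ∣ W.Δ → ¬ (ℓ' : ℤ) ∣ W.c₄ →
      ∀ A' : ValuationSubring Qb, A'.LiesOverPrime ℓ' →
        ∀ r : Place Qb (modularFunctionFieldBar p) →
            Place (IsLocalRing.ResidueField A')
              (modularFunctionFieldFullC (IsLocalRing.ResidueField A') p),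
          IsPlaceReductionModL A' p r →
            (W.InZeroComponentAt A' Q → r x = r (cuspInf p)) ∧
            (¬ W.InZeroComponentAt A' Q → r x = r (cuspZero p)))
    (h2Δ : (2 : ℤ) ∣ W.Δ) (h2c₄ : ¬ (2 : ℤ) ∣ W.c₄)
    (h2 : ∀ A' : ValuationSubring Qb, A'.LiesOverPrime 2 → ¬ W.InZeroComponentAt A' Q)
    (h3Δ : (3 : ℤ) ∣ W.Δ) (h3c₄ : ¬ (3 : ℤ) ∣ W.c₄)
    (h3 : ∀ A' : ValuationSubring Qb, A'.LiesOverPrime 3 → ¬ W.InZeroComponentAt A' Q)
    {ℓ : ℕ} (hℓ : ℓ.Prime) (hℓp : ℓ ≠ p) (hℓΔ : (ℓ : ℤ) ∣ W.Δ) (hℓc₄ : ¬ (ℓ : ℤ) ∣ W.c₄)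
    (A : ValuationSubring Qb) (hA : A.LiesOverPrime ℓ) :
    ¬ W.InZeroComponentAt A Q := by
  have hfin : IsOfFinAddOrder (c0 p) := isOfFinAddOrder_iff_nsmul_eq_zero.2 ⟨n₀, hn₀, hcusp⟩
  have hN0 : addOrderOf (c0 p) ≠ 0 := fun h => (addOrderOf_eq_zero_iff.1 h) hfin
  have hN1 : addOrderOf (c0 p) ≠ 1 := fun h => hc0 (AddMonoid.addOrderOf_eq_one_iff.1 h)
  refine not_inZeroComponentAt_of_inputs hp hp2 hp3 W Q (addOrderOf (c0 p)) hN1 hN0
    (c0 p) exists_liesOverPrime hS18 hG0 hE4 hFIN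
    (fun r hr hrn => ?_) hE2l
    (moduliClass p x) (moduliClass_mem_JQ p x hxfix hczfix) ?_ h2Δ h2c₄ h2 h3Δ h3c₄ h3 hℓ hℓp hℓΔ
    hℓc₄ A hA
  · -- `(N₀ / r) • c0` has order exactly `r`
    refine exists_mul_of_div (c0 p) (addOrderOf_nsmul_eq_zero (c0 p)) hrn ?_
    intro h0
    have hdvd : addOrderOf (c0 p) ∣ addOrderOf (c0 p) / r := addOrderOf_dvd_of_nsmul_eq_zero h0
    have hpos : 0 < addOrderOf (c0 p) / r :=
      Nat.div_pos (Nat.le_of_dvd (Nat.pos_of_ne_zero hN0) hrn) hr.pos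
    have hle := Nat.le_of_dvd hpos hdvd
    have hlt : addOrderOf (c0 p) / r < addOrderOf (c0 p) :=
      Nat.div_lt_self (Nat.pos_of_ne_zero hN0) hr.one_lt
    omega
  · intro ℓ' hℓ' hℓ'p hℓ'Δ hℓ'c A' hA'
    have hRI := hG0 hℓ' hℓ'p A' hA'
    have hxr := hx hℓ' hℓ'p hℓ'Δ hℓ'c A' hA' (placeReductionModL hRI)
      (isPlaceReductionModL_placeReductionModL hRI)
    have hred := red_moduliClass A' hRI x
    exact ⟨fun hin => hred.1 (hxr.1 hin), fun hnin => hred.2 (hxr.2 hnin)⟩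

end Fermat.Agent.MAZ.Endgame88
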