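/-
Programme MAZ (S15), brick S15-TOP (helper88), part 3: **the conclusion of S15 from the leaves.**

`Leaf*` : the TEN still-open inputs of S15, as named `Prop`s in the exact shape consumed here
(owners: prove `theorem … : Endgame88.LeafXX …` — each is one `unfold`/`exact` away from the shape
announced on the board):

| leaf            | content                                                              | owner          |
|-----------------|----------------------------------------------------------------------|----------------|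
| `LeafS17 p`     | `J₀(p)(ℚ)` is finitely generated (= S17 at `N = p`)                   | MW             |
| `LeafFlat p r`  | `J₀(p)[r ^ k]` has a finite flat model over `ℤ_(r)` (S19 target, `N = p`) | T1A        |
| `LeafRClass p r S` | `RClass r (cycloChar r) G_k` (X-ES-A1)                            | helper89       |
| `LeafA3 p r S`  | `|G_k| ≤ |G_k^{⟨c⟩}|²` (A3')                                          | helper72       |
| `LeafK2 p r`    | rational points have division points with flat Kummer cochain (T1A-X) | T1A-X          |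
| `LeafK3 p r`    | `M₁ • x` has an `I_p`-fixed `r ^ k`-division point (T1B-U)            | T1B-U          |
| `LeafG0 p`      | `ReductionInputsModL A' p` for every `A'` over `ℓ' ≠ p`               | helper56       |
| `LeafE4 p`      | `ker red_{A'}` is stable under `T_q`, `q ∉ {ℓ', p}`                   | helper71       |
| `LeafCuspGal p` | the cusp `0` is a Galois-fixed place                                  | helper19       |
| `LeafE3 p W Q`  | the moduli place of `(E, ⟨Q⟩)` (D1–D4)                                | helper86's cell|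

`s15_of_leaves_core` : the conclusion of S15 from the ten leaves (for the primes `r ∣ p - 1`) and from
EIGHT facts that are already on `main` but sit in heavy closures (`S18.result`, `InertiaTors` of S34,
divisibility and smoothness of `J₀(p)(ℚ̄)`, (K1) from `TorsionGalois12.sp`, `(p-1) • c₀ = 0`, `c₀ ≠ 0`,
(E2ℓ) core of `OggL24`), kept as hypotheses here so that this file has a light import closure;
`Endgame88/TopFinal.lean` discharges them.
-/
import Mathlib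
import Fermat.Agent.MAZ.Endgame88.Inst
import Fermat.Agent.MAZ.Endgame88.Fin
import Fermat.Agent.MAZ.K3Abs42.Main

set_option autoImplicit false
set_option linter.unusedSectionVars false
set_option linter.unusedVariables false
set_option linter.style.haveILetI false
set_option synthInstance.maxHeartbeats 400000

open ModularCurve AlgebraicCurve WeierstrassCurve WeierstrassCurve.Affine

noncomputable section

namespace Fermat.Agent.MAZ.Endgame88

open Fermat.Agent.Flat44 Fermat.Agent.MAZ.SelCoh42 Fermat.Agent.MAZ.FlatCond42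
open Fermat.Agent.MAZ.SSelInst97 Fermat.Agent.MAZ.Kum5 Fermat.Agent.MAZ.HeckeCusp89 ExtCitation

/-! ### The leaves -/

section Leaves

variable (p : ℕ) [NeZero p]

/-- **(S17)** at `N = p`: `J₀(p)(ℚ)` is finitely generated. -/
def LeafS17 : Prop := AddGroup.FG ↥(FixedPoints.addSubgroup GQ (JZero p))

/-- **(S19 target at level `p`)**: `J₀(p)[r ^ k]` has a finite flat model over `ℤ_(r)`
(`Flat44.S19FlatTarget` at `N = p`, `ℓ = r`). -/
def LeafFlat (r : ℕ) : Prop :=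
  ∀ k : ℕ, HasFlatModel r ↥(Submodule.torsionBy ℤ (JZero p) ((r : ℤ) ^ k))
    (torsionAct p ((r : ℤ) ^ k))

/-- **(X-ES-A1)**: `G_k = J₀(p)[r ^ k]_m` has `r`-power order and nilpotent `(g - 1)(g - χ g)`. -/
def LeafRClass (r : ℕ) [Fact r.Prime] (S : Finset ℕ) : Prop :=
  ∀ k : ℕ, RClass r (cycloChar r) (FinAbs19.GmStable p r S k).W

/-- **(A3')**: `|G_k| ≤ |G_k^{⟨c⟩}|²`, `c` the complex conjugation. -/
def LeafA3 (r : ℕ) (S : Finset ℕ) : Prop :=
  ∀ k : ℕ, Nat.card (FinAbs19.GmStable p r S k).W ≤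
    Nat.card (Inv (Subgroup.zpowers complexConjugation) (FinAbs19.GmStable p r S k).W) ^ 2

/-- **(K2)** (T1A-X): every rational point `x` has an `r ^ k`-division point `z` whose Kummer cochain
`g ↦ g • z - z` (with values in `J₀(p)[r ^ k]`) is flat at `r`. -/
def LeafK2 (r : ℕ) : Prop :=
  ∀ (k : ℕ) (x : ↥(Inv (⊤ : Subgroup GQ) (JZero p))),
    ∃ z : JZero p, r ^ k • z = x.1 ∧
      ∀ c : GQ → ↥(tors (Γ := GQ) (JZero p) (r ^ k)).W,
        (∀ g : GQ, ((c g : ↥(tors (Γ := GQ) (JZero p) (r ^ k)).W) : JZero p) = g • z - z) →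
          IsFlatCochain r (r ^ k) c

/-- **(K3)** (T1B-U): for one place `Ap` over `p` and one `M₁ > 0` (independent of `k`), `M₁ • x` has an
`r ^ k`-division point fixed by the inertia group of `Ap`, for every rational point `x`. -/
def LeafK3 (r : ℕ) : Prop :=
  ∃ Ap : ValuationSubring Qb, Ap.LiesOverPrime p ∧ ∃ M₁ : ℕ, 0 < M₁ ∧
    ∀ (k : ℕ) (x : ↥(Inv (⊤ : Subgroup GQ) (JZero p))),
      ∃ z' : JZero p, r ^ k • z' = M₁ • x.1 ∧ ∀ s ∈ Ap.inertiaSubgroupIn ℚ, s • z' = z'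

/-- **(G0)**: the reduction inputs at level `p` for every place over a prime `ℓ' ≠ p`. -/
def LeafG0 : Prop :=
  ∀ {ℓ' : ℕ}, ℓ'.Prime → ℓ' ≠ p → ∀ A' : ValuationSubring Qb, A'.LiesOverPrime ℓ' →
    ReductionInputsModL A' p

/-- **(E4')**: the kernel of reduction is stable under `T_q`, `q ∉ {ℓ', p}`. -/
def LeafE4 : Prop :=
  ∀ {ℓ' : ℕ}, ℓ'.Prime → ℓ' ≠ p → ∀ A' : ValuationSubring Qb, A'.LiesOverPrime ℓ' →
    ∀ q : Nat.Primes, (q : ℕ) ≠ ℓ' → (q : ℕ) ≠ p → ∀ z : JZero p,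
      reductionModL A' p z = 0 → reductionModL A' p (heckeOperatorBar p q z) = 0

/-- **CUSP-GAL**: the cusp `0` is fixed by the arithmetic Galois action on places. -/
def LeafCuspGal : Prop :=
  ∀ σ : GQ, arithmeticGalois (modularFunctionFieldFull p) σ • cuspZero p = cuspZero p

/-- **(E3)** (output of D1–D4): the Galois-fixed moduli place `x` of `(E, ⟨Q⟩)` with its reductions. -/
def LeafE3 (W : WeierstrassCurve ℤ)
    (Q : ((W.map (Int.castRingHom ℚ))⁄(AlgebraicClosure ℚ)).Point) : Prop :=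
  ∃ x : Place Qb (modularFunctionFieldBar p),
    (∀ σ : GQ, arithmeticGalois (modularFunctionFieldFull p) σ • x = x) ∧
    ∀ {ℓ' : ℕ}, ℓ'.Prime → ℓ' ≠ p → (ℓ' : ℤ) ∣ W.Δ → ¬ (ℓ' : ℤ) ∣ W.c₄ →
      ∀ A' : ValuationSubring Qb, A'.LiesOverPrime ℓ' →
        ∀ r : Place Qb (modularFunctionFieldBar p) →
            Place (IsLocalRing.ResidueField A')
              (modularFunctionFieldFullC (IsLocalRing.ResidueField A') p),
          IsPlaceReductionModL A' p r →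
            (W.InZeroComponentAt A' Q → r x = r (cuspInf p)) ∧
            (¬ W.InZeroComponentAt A' Q → r x = r (cuspZero p))

end Leaves

/-! ### Adapters from the announced shapes -/

section Adapters

variable (p : ℕ) [NeZero p]

/-- helper89's announced `rClass_of_le_Gm` (general Hecke-stable `T ≤ G_k`) gives `LeafRClass`. -/
theorem leafRClass_of_general (hp : p.Prime) (r : ℕ) [hr : Fact r.Prime] (S : Finset ℕ)
    (hpS : p ∈ S)
    (h : ∀ (k : ℕ) (T : StableSub GQ (JZero p)), Finite T.W → T.W ≤ Gm5.Gm p r S k →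
      (∀ q : Nat.Primes, (q : ℕ) ∉ S → ∀ y ∈ T.W, heckeOperatorBar p q y ∈ T.W) →
      (∃ k' : ℕ, ∀ x : T.W, r ^ k' • x = 0) ∧ NilQuad (cycloChar r) T.W) :
    LeafRClass p r S := fun k =>
  h k (FinAbs19.GmStable p r S k) (finite_Gm p hr.1 S k) le_rfl
    (fun q hq y hy => hecke_mem_Gm p hp hpS q hq hy)

/-- (K2) in `kumCocycle` form (the shape of `KumFlat97.kumCocycle_flat_of_level_transfer`) gives
`LeafK2`. -/
theorem leafK2_of_kumCocycle (r : ℕ)
    (hdiv : ∀ k : ℕ, ∀ x : JZero p, ∃ y : JZero p, r ^ k • y = x)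
    (hsm : IsSmooth galLevel (JZero p))
    (h : ∀ (k : ℕ) (x : ↥(Inv (⊤ : Subgroup GQ) (JZero p))),
      ∃ (z : JZero p) (hz : r ^ k • z = x.1),
        IsFlatCochain r (r ^ k) (kumCocycle galLevel (hdiv k) hsm z (fun g => by
          rw [hz]; exact mem_Inv_top.1 x.2 g)).1) :
    LeafK2 p r := by
  intro k x
  obtain ⟨z, hz, hfl⟩ := h k x
  refine ⟨z, hz, fun c hc => ?_⟩
  have hcc : c = (kumCocycle galLevel (hdiv k) hsm z (fun g => by
      rw [hz]; exact mem_Inv_top.1 x.2 g)).1 := by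
    funext g
    apply Subtype.ext
    rw [hc g, kumCocycle_apply]
  rw [hcc]
  exact hfl

/-- **T1B-U ⇒ (K3)**: `K3Abs42.exists_division_point` (helper42) in the subgroup vocabulary.  `J0 ⊇ J1` are
subgroups of `J₀(p)(ℚ̄)` ("multidegree `0`", "kernel of reduction" at `Ap`), `c` a class with
`n₀ • c ∈ J0`; (Φ), (RED-SURJ), (FORMAL) as in report 1121. -/
theorem leafK3_of_T1BU (r : ℕ) (Ap : ValuationSubring Qb) (hAp : Ap.LiesOverPrime p)
    (J0 J1 : AddSubgroup (JZero p)) (hJ1 : J1 ≤ J0) (c : JZero p) (N : ℤ) (hN : N ≠ 0)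
    (n₀ : ℕ) (hn₀ : 0 < n₀)
    (hphi : ∀ y : JZero p, (∀ s ∈ Ap.inertiaSubgroupIn ℚ, s • y = y) →
      ∃ m : ℤ, N • y - m • c ∈ J0)
    (hcusp : n₀ • c ∈ J0)
    (hred : ∀ x ∈ J0, (∀ s ∈ Ap.inertiaSubgroupIn ℚ, s • x = x) →
      ∃ x' ∈ J0, (∀ s ∈ Ap.inertiaSubgroupIn ℚ, s • x' = x') ∧ x - r • x' ∈ J1)
    (hformal : ∀ x ∈ J1, (∀ s ∈ Ap.inertiaSubgroupIn ℚ, s • x = x) →
      ∃ x' ∈ J1, (∀ s ∈ Ap.inertiaSubgroupIn ℚ, s • x' = x') ∧ r • x' = x) :
    LeafK3 p r := by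
  refine ⟨Ap, hAp, N.natAbs * n₀, Nat.mul_pos (Int.natAbs_pos.2 hN) hn₀, fun k x => ?_⟩
  have hx : ∀ s : ↥(Ap.inertiaSubgroupIn ℚ), s • x.1 = x.1 := fun s => mem_Inv_top.1 x.2 s.1
  obtain ⟨z', hz', hz'I⟩ := Fermat.Agent.MAZ.K3Abs42.exists_division_point
    (I := ↥(Ap.inertiaSubgroupIn ℚ)) J0 J1 hJ1 r c N n₀
    (fun y hy => hphi y fun s hs => hy ⟨s, hs⟩) hcusp
    (fun y hy0 hy => by
      obtain ⟨y', hy'0, hy'I, hd⟩ := hred y hy0 fun s hs => hy ⟨s, hs⟩
      exact ⟨y', hy'0, fun s => hy'I s.1 s.2, hd⟩)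
    (fun y hy1 hy => by
      obtain ⟨y', hy'1, hy'I, hd⟩ := hformal y hy1 fun s hs => hy ⟨s, hs⟩
      exact ⟨y', hy'1, fun s => hy'I s.1 s.2, hd⟩)
    x.1 hx k
  exact ⟨z', hz', fun s hs => hz'I ⟨s, hs⟩⟩

end Adapters

/-! ### The top theorem, core form -/

/-- **S15 from the leaves, core form.**  Besides the ten leaves, eight facts already on `main` are
hypotheses (`hS18 … hE2l`), discharged in `Endgame88/TopFinal.lean`. -/
theorem s15_of_leaves_core
    {p : ℕ} [NeZero p] (hp : p.Prime) (hp' : p ∉ ({2, 3, 5, 7, 13} : Finset ℕ))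
    (W : WeierstrassCurve ℤ)
    (Q : ((W.map (Int.castRingHom ℚ))⁄(AlgebraicClosure ℚ)).Point)
    -- the ten leaves
    (hS17 : LeafS17 p)
    (hFlat : ∀ r : ℕ, r.Prime → r ∣ p - 1 → LeafFlat p r)
    (hRC : ∀ (r : ℕ) [Fact r.Prime], r ∣ p - 1 → ∀ S : Finset ℕ,
      ({2, 3, p, r} : Finset ℕ) ⊆ S → LeafRClass p r S)
    (hA3 : ∀ r : ℕ, r.Prime → r ∣ p - 1 → ∀ S : Finset ℕ,
      ({2, 3, p, r} : Finset ℕ) ⊆ S → LeafA3 p r S)
    (hK2 : ∀ r : ℕ, r.Prime → r ∣ p - 1 → LeafK2 p r)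
    (hK3 : ∀ r : ℕ, r.Prime → r ∣ p - 1 → LeafK3 p r)
    (hG0 : LeafG0 p) (hE4 : LeafE4 p) (hCG : LeafCuspGal p) (hE3 : LeafE3 p W Q)
    -- eight facts already on `main` (heavy closures)
    (hS18 : ∀ {ℓ' : ℕ}, ℓ'.Prime → ¬ ℓ' ∣ p → ∀ A' : ValuationSubring Qb, A'.LiesOverPrime ℓ' →
      ReductionInputsModL A' p → ∀ m : ℕ, ¬ ℓ' ∣ m → ∀ z : JZero p, m • z = 0 →
        reductionModL A' p z = 0 → z = 0)
    (hunip : ∀ P : ValuationSubring Qb, P.LiesOverPrime p → ∀ τ ∈ P.inertiaSubgroupIn ℚ,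
      ∀ m : ℕ, ¬ p ∣ m → ∀ y : JZero p, m • y = 0 → τ • τ • y + y = τ • y + τ • y)
    (hdiv : ∀ n : ℕ, n ≠ 0 → ∀ x : JZero p, ∃ y : JZero p, n • y = x)
    (hsm : IsSmooth galLevel (JZero p))
    (hK1 : ∀ (q : ℕ) (A' : ValuationSubring Qb), q.Prime → q ≠ p → A'.LiesOverPrime q →
      ∀ s ∈ A'.inertiaSubgroupIn ℚ, ∀ m : ℕ, ¬ q ∣ m → ∀ z : JZero p,
        (∀ σ : GQ, σ • (m • z) = m • z) → s • z = z)
    (hcusp : (p - 1) • c0 p = 0) (hc0 : c0 p ≠ 0)
    (hE2l : ∀ ℓ' : ℕ, ℓ'.Prime → 5 ≤ ℓ' → ℓ' ∣ p - 1 → ∀ A' : ValuationSubring Qb,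
      A'.LiesOverPrime ℓ' → ReductionInputsModL A' p → ∀ K K' m : ℕ, ¬ ℓ' ∣ K' →
        K' * (p - 1) = ℓ' * m * K → reductionModL A' p (K • c0 p) ≠ 0)
    -- the hypotheses of S15
    (h2Δ : (2 : ℤ) ∣ W.Δ) (h2c₄ : ¬ (2 : ℤ) ∣ W.c₄)
    (h2 : ∀ A' : ValuationSubring Qb, A'.LiesOverPrime 2 → ¬ W.InZeroComponentAt A' Q)
    (h3Δ : (3 : ℤ) ∣ W.Δ) (h3c₄ : ¬ (3 : ℤ) ∣ W.c₄)
    (h3 : ∀ A' : ValuationSubring Qb, A'.LiesOverPrime 3 → ¬ W.InZeroComponentAt A' Q)
    {ℓ : ℕ} (hℓ : ℓ.Prime) (hℓp : ℓ ≠ p) (hℓΔ : (ℓ : ℤ) ∣ W.Δ) (hℓc₄ : ¬ (ℓ : ℤ) ∣ W.c₄)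
    (A : ValuationSubring Qb) (hA : A.LiesOverPrime ℓ) :
    ¬ W.InZeroComponentAt A Q := by
  unfold LeafG0 at hG0
  unfold LeafE4 at hE4
  unfold LeafCuspGal at hCG
  unfold LeafS17 at hS17
  have hp2 : p ≠ 2 := fun h => hp' (by simp [h])
  have hp3 : p ≠ 3 := fun h => hp' (by simp [h])
  have hpos : 0 < p - 1 := by have := hp.two_le; omega
  have hord : addOrderOf (c0 p) ∣ p - 1 := addOrderOf_dvd_of_nsmul_eq_zero hcusp
  have hfin : IsOfFinAddOrder (c0 p) := isOfFinAddOrder_iff_nsmul_eq_zero.2 ⟨p - 1, hpos, hcusp⟩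
  have hN0 : 0 < addOrderOf (c0 p) := hfin.addOrderOf_pos
  obtain ⟨x, hxfix, hx⟩ := hE3
  refine s15_of_inputs_order hp hp2 hp3 W Q @hS18 @hG0 @hE4 (p - 1) hpos hcusp hc0 ?_ ?_ x hxfix hCG
    @hx h2Δ h2c₄ h2 h3Δ h3c₄ h3 hℓ hℓp hℓΔ hℓc₄ A hA
  · -- (FIN')
    intro r hr hrN S hS
    have hrp1 : r ∣ p - 1 := hrN.trans hord
    have hpr : p ≠ r := by
      intro h
      have := Nat.le_of_dvd hpos hrp1
      omega
    haveI : Fact r.Prime := ⟨hr⟩
    have hpS : p ∈ S := hS (by simp)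
    obtain ⟨Ap, hAp, M₁, hM₁, hK3'⟩ := hK3 r hr hrp1
    have hnd : ∀ (q : ℕ), q.Prime → q ≠ r → ∀ k : ℕ, ¬ q ∣ r ^ k := by
      intro q hq hqr k hdvd
      exact hqr ((Nat.prime_dvd_prime_iff_eq hq hr).1 (hq.dvd_of_dvd_pow hdvd))
    exact eisenstein_fin_of_leaves p hp r hpr S hpS hS17
      (fun k => hdiv (r ^ k) (pow_ne_zero k hr.ne_zero)) hsm (hFlat r hr hrp1)
      (hRC r hrp1 S hS) Ap hAp
      (fun τ hτ k y hy => hunip Ap hAp τ hτ (r ^ k) (hnd p hp hpr k) y hy)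
      (hA3 r hr hrp1 S hS)
      (fun I hI s hs k z hz => by
        obtain ⟨q, A', hq, hqp, hqr, hA', rfl⟩ := hI
        exact hK1 q A' hq hqp hA' s hs (r ^ k) (hnd q hq hqr k) z hz)
      (hK2 r hr hrp1) M₁ hM₁ hK3'
  · -- (E2ℓ), order form
    intro ℓ' hℓ' h5 hℓ'p hℓ'N A' hA'
    have hℓ'p1 : ℓ' ∣ p - 1 := hℓ'N.trans hord
    refine ⟨addOrderOf (c0 p) / ℓ', ?_, ?_⟩
    · rw [← mul_smul, Nat.mul_div_cancel' hℓ'N, addOrderOf_nsmul_eq_zero]
    · refine hE2l ℓ' hℓ' h5 hℓ'p1 A' hA' (hG0 hℓ' hℓ'p A' hA') (addOrderOf (c0 p) / ℓ') 1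
        ((p - 1) / addOrderOf (c0 p)) ?_ ?_
      · intro h1
        have := Nat.le_of_dvd one_pos h1
        omega
      · obtain ⟨u, hu⟩ := hord
        obtain ⟨v, hv⟩ := hℓ'N
        have hℓ'pos : 0 < ℓ' := hℓ'.pos
        rw [one_mul, hu, Nat.mul_div_cancel_left u hN0, hv, Nat.mul_div_cancel_left v hℓ'pos]
        ring

end Fermat.Agent.MAZ.Endgame88
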