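/-
Programme MAZ (S15), brick S15-TOP (helper88), part 4: **`s15_of_leaves`** — the conclusion of S15 with
EXACTLY the NINE open leaves (`Endgame88.Leaf*`, see `Endgame88/Top.lean`) as hypotheses
(`LeafCuspGal` is closed by helper19's `CuspGal19.galois_smul_cuspZero`).

The eight "already on main" hypotheses of `s15_of_leaves_core` are discharged here:

* `hS18`  := `Fermat.Agent.S18.result`;
* `hunip` := `ES.N34.IfaceN4.InertiaTors` (the chain of `Fermat.Agent.S34`) at `N = q = p`;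
* `hdiv`  := `MW.Div73.jzero_divisible`;
* `hsm`   := `ES.GAL.OpenStab12.hasLevel_pic0`;
* `hK1`   := `Unram64.inertia_smul_eq_of_rational_multiple` (helper64; from `ES.TOP.TorsionGalois12.sp`);
* `hcusp` := `Ogg24.pred_nsmul_c0`, `hc0` from `Ogg24.c0_rpart_ne_zero`;
* `hE2l`  := `OggL24.red_nsmul_c0_ne_zero`.

When the nine leaves are on `main`, `Fermat/Agent/S15.lean` is `exact s15_of_leaves hp hp' W Q …`.
-/
import Mathlib
import Fermat.Agent.MAZ.Endgame88.Top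
import Fermat.Agent.S18
import Fermat.Agent.S34
import Fermat.Agent.MW.Div73
import Fermat.Agent.ES.GAL.OpenStab12
import Fermat.Agent.MAZ.Unram64.Main
import Fermat.Agent.MAZ.CuspGal19.Main
import Fermat.Agent.MAZ.OggL24.Red

set_option autoImplicit false
set_option linter.unusedSectionVars false
set_option linter.unusedVariables false

open ModularCurve AlgebraicCurve WeierstrassCurve WeierstrassCurve.Affine

noncomputable section

namespace Fermat.Agent.MAZ.Endgame88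

open Fermat.Agent.Flat44 Fermat.Agent.MAZ.SelCoh42 Fermat.Agent.MAZ.FlatCond42
open Fermat.Agent.MAZ.HeckeCusp89

section Landed

variable (p : ℕ) [NeZero p]

/-- `J₀(p)(ℚ̄)` is smooth for the level basis `galLevel`. -/
theorem isSmooth_JZero : IsSmooth galLevel (JZero p) := by
  intro y
  obtain ⟨L, hL, H⟩ := Fermat.Agent.ES.GAL.OpenStab12.hasLevel_pic0 p y
  exact ⟨L.fixingSubgroup, ⟨L, hL, rfl⟩, fun s hs =>
    H s ((IntermediateField.mem_fixingSubgroup_iff _ _).1 hs)⟩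

/-- **(A2)-input**: inertia at `p` is unipotent of level two on the prime-to-`p` torsion of `J₀(p)`. -/
theorem inertia_unipotent (hp : p.Prime) (P : ValuationSubring Qb) (hP : P.LiesOverPrime p)
    (τ : GQ) (hτ : τ ∈ P.inertiaSubgroupIn ℚ) (m : ℕ) (hm : ¬ p ∣ m) (y : JZero p)
    (hy : m • y = 0) : τ • τ • y + y = τ • y + τ • y := by
  have hT : Fermat.Agent.ES.N34.IfaceN4.InertiaTors :=
    Fermat.Agent.ES.N34.IfaceN4.inertiaTors_of_chain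
      Fermat.Agent.ES.N34.TorsionInertia12.topStep
      Fermat.Agent.ES.N34.LvlN17.hlvl
      Fermat.Agent.ES.N34.DescN1.descStep_chain
      Fermat.Agent.S34.numStep12
  refine hT p p hp dvd_rfl ?_ P hP τ hτ m hm y hy
  intro h
  have h1 : p ^ 2 ≤ p := Nat.le_of_dvd hp.pos h
  have h2 := hp.two_le
  nlinarith [Nat.mul_le_mul_left p h2]

/-- `c₀ ≠ 0` for `p ∉ {2, 3, 5, 7, 13}`. -/
theorem c0_ne_zero (hp : p.Prime) (hp' : p ∉ ({2, 3, 5, 7, 13} : Finset ℕ)) : c0 p ≠ 0 := by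
  obtain ⟨r, hr, hrn⟩ := Nat.exists_prime_and_dvd (nE_ne_one hp hp')
  intro h0
  exact Fermat.Agent.MAZ.Ogg24.c0_rpart_ne_zero p hp hr hrn (by rw [h0, smul_zero])

end Landed

/-- **S15 from the nine open leaves.** -/
theorem s15_of_leaves
    {p : ℕ} [NeZero p] (hp : p.Prime) (hp' : p ∉ ({2, 3, 5, 7, 13} : Finset ℕ))
    (W : WeierstrassCurve ℤ)
    (Q : ((W.map (Int.castRingHom ℚ))⁄(AlgebraicClosure ℚ)).Point)
    (hS17 : LeafS17 p)
    (hFlat : ∀ r : ℕ, r.Prime → r ∣ p - 1 → LeafFlat p r)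
    (hRC : ∀ (r : ℕ) [Fact r.Prime], r ∣ p - 1 → ∀ S : Finset ℕ,
      ({2, 3, p, r} : Finset ℕ) ⊆ S → LeafRClass p r S)
    (hA3 : ∀ r : ℕ, r.Prime → r ∣ p - 1 → ∀ S : Finset ℕ,
      ({2, 3, p, r} : Finset ℕ) ⊆ S → LeafA3 p r S)
    (hK2 : ∀ r : ℕ, r.Prime → r ∣ p - 1 → LeafK2 p r)
    (hK3 : ∀ r : ℕ, r.Prime → r ∣ p - 1 → LeafK3 p r)
    (hG0 : LeafG0 p) (hE4 : LeafE4 p) (hE3 : LeafE3 p W Q)
    (h2Δ : (2 : ℤ) ∣ W.Δ) (h2c₄ : ¬ (2 : ℤ) ∣ W.c₄)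
    (h2 : ∀ A' : ValuationSubring Qb, A'.LiesOverPrime 2 → ¬ W.InZeroComponentAt A' Q)
    (h3Δ : (3 : ℤ) ∣ W.Δ) (h3c₄ : ¬ (3 : ℤ) ∣ W.c₄)
    (h3 : ∀ A' : ValuationSubring Qb, A'.LiesOverPrime 3 → ¬ W.InZeroComponentAt A' Q)
    {ℓ : ℕ} (hℓ : ℓ.Prime) (hℓp : ℓ ≠ p) (hℓΔ : (ℓ : ℤ) ∣ W.Δ) (hℓc₄ : ¬ (ℓ : ℤ) ∣ W.c₄)
    (A : ValuationSubring Qb) (hA : A.LiesOverPrime ℓ) :
    ¬ W.InZeroComponentAt A Q :=
  s15_of_leaves_core hp hp' W Q hS17 hFlat hRC hA3 hK2 hK3 hG0 hE4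
    (fun σ => Fermat.Agent.MAZ.CuspGal19.galois_smul_cuspZero p hp σ) hE3
    (fun {ℓ'} hℓ' hℓ'p A' hA' h m hm z hmz hz => by
      haveI : Fact ℓ'.Prime := ⟨hℓ'⟩
      exact Fermat.Agent.S18.result p hℓ'p A' hA' h m hm z hmz hz)
    (fun P hP τ hτ m hm y hy => inertia_unipotent p hp P hP τ hτ m hm y hy)
    (fun n hn x => Fermat.Agent.MW.Div73.jzero_divisible p n hn x)
    (isSmooth_JZero p)
    (fun q A' hq hqp hA' s hs m hm z hz =>
      Fermat.Agent.MAZ.Unram64.inertia_smul_eq_of_rational_multiple hq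
        (fun h => hqp ((Nat.prime_dvd_prime_iff_eq hq hp).1 h)) hA' hm hz hs)
    (Fermat.Agent.MAZ.Ogg24.pred_nsmul_c0 p hp) (c0_ne_zero p hp hp')
    (fun ℓ' hℓ' h5 hℓ'p1 A' hA' h K K' m hK' hrel =>
      Fermat.Agent.MAZ.OggL24.red_nsmul_c0_ne_zero p hp hℓ' h5 hℓ'p1 A' hA' h hK' hrel)
    h2Δ h2c₄ h2 h3Δ h3c₄ h3 hℓ hℓp hℓΔ hℓc₄ A hA

end Fermat.Agent.MAZ.Endgame88
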